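import Fermat.Agent.AV.PicDiv86.H0

/-!
# PIC-div, part 4: the extension lemma (Hartshorne II.5.14) in function-field phrasing

`X` quasi-compact integral, `D` an effective Cartier divisor, `E` any Cartier divisor.
If `g ∈ F` is a section of `O(E)` over `X \ Supp D`, then `g ∈ H0 (E + nD)` for all `n ≫ 0`.
In particular (`E = 0`): a rational function regular on `X \ Supp D` lies in `H0 (nD)`.
-/

set_option autoImplicit false

universe u

open AlgebraicGeometry CategoryTheory TopologicalSpace Opposite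

namespace Fermat.Agent.AV.PicDiv86

variable {X : Scheme.{u}} [IsIntegral X]

/-- Affine-local core: `U` affine open, `f ∈ Γ(U)` (inside `F`), `h ∈ F` regular at all points of
`U` where `f` is a unit. Then `h f^n` is regular on `U` for some `n`. -/
theorem exists_pow_mul_mem_regularOn {U : X.Opens} (hU : IsAffineOpen U) [Nonempty U]
    (f : X.functionFieldˣ) (hf : (f : X.functionField) ∈ regularOn X (U : Set X))
    (h : X.functionField)
    (hh : ∀ y ∈ U, f ∈ stalkUnits X y → h ∈ stalkSubring X y) :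
    ∃ n : ℕ, h * (f : X.functionField) ^ n ∈ regularOn X (U : Set X) := by
  obtain ⟨s, hs⟩ := mem_regularOn_iff.1 hf
  have hgen : genericPoint X ∈ U :=
    ((genericPoint_spec X).mem_open_set_iff U.isOpen).2 (by simpa using ‹Nonempty U›)
  -- the basic open of `s`
  have hmem : ∀ y, y ∈ X.basicOpen s → f ∈ stalkUnits X y := by
    intro y hy
    have hyU : y ∈ U := X.basicOpen_le s hy
    rw [Scheme.mem_basicOpen X s y hyU] at hy
    refine (mem_stalkUnits_iff_isUnit (X.presheaf.germ U y hyU s) f ?_).2 hy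
    rw [Scheme.algebraMap_germ_eq_germToFunctionField X hyU s, hs]
  have hne : Nonempty (X.basicOpen s) := by
    refine ⟨⟨genericPoint X, ?_⟩⟩
    rw [Scheme.mem_basicOpen X s _ hgen]
    have : X.presheaf.germ U (genericPoint X) hgen s = (f : X.functionField) := hs
    rw [this]
    exact f.isUnit
  have hreg : h ∈ regularOn X (X.basicOpen s : Set X) :=
    mem_regularOn.2 fun y hy => hh y (X.basicOpen_le s hy) (hmem y hy)
  obtain ⟨t, ht⟩ := mem_regularOn_iff.1 hreg
  have hloc := hU.isLocalization_basicOpen s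
  obtain ⟨n, a, hna⟩ := IsLocalization.Away.surj s t
  refine ⟨n, ?_⟩
  rw [mem_regularOn_iff]
  refine ⟨a, ?_⟩
  have e1 : X.germToFunctionField (X.basicOpen s) (algebraMap Γ(X, U) Γ(X, X.basicOpen s) a) =
      X.germToFunctionField U a := germToFunctionField_res (X.basicOpen_le s) a
  have e2 : X.germToFunctionField (X.basicOpen s) (algebraMap Γ(X, U) Γ(X, X.basicOpen s) s) =
      X.germToFunctionField U s := germToFunctionField_res (X.basicOpen_le s) s
  rw [← e1, ← hna, map_mul, map_pow, e2, hs, ht]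

namespace CaDiv

/-- Every point has an affine open neighbourhood on which both `D` and `E` are principal. -/
theorem exists_affine_isLocalEq₂ (D E : CaDiv X) (x : X) :
    ∃ U : X.Opens, IsAffineOpen U ∧ x ∈ U ∧ ∃ f e : X.functionFieldˣ,
      ∀ y ∈ U, D.IsLocalEq y f ∧ E.IsLocalEq y e := by
  obtain ⟨U₁, hx₁, f, hf⟩ := D.exists_open_isLocalEq x
  obtain ⟨U₂, hx₂, e, he⟩ := E.exists_open_isLocalEq x
  obtain ⟨_, ⟨W, hW, rfl⟩, hxW, hWU⟩ :=
    X.isBasis_affineOpens.exists_subset_of_mem_open (show x ∈ (U₁ ⊓ U₂ : X.Opens) from ⟨hx₁, hx₂⟩)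
      (U₁ ⊓ U₂).isOpen
  exact ⟨W, hW, hxW, f, e, fun y hy => ⟨hf y (hWU hy).1, he y (hWU hy).2⟩⟩

theorem exists_affine_isLocalEq (D : CaDiv X) (x : X) :
    ∃ U : X.Opens, IsAffineOpen U ∧ x ∈ U ∧ ∃ f : X.functionFieldˣ,
      ∀ y ∈ U, D.IsLocalEq y f := by
  obtain ⟨U, hU, hx, f, _, h⟩ := exists_affine_isLocalEq₂ D D x
  exact ⟨U, hU, hx, f, fun y hy => (h y hy).1⟩

/-- Local form of the extension lemma. -/
theorem exists_forall_mem_stalkLattice_of_affine {D E : CaDiv X} (hD : D.IsEffective)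
    {U : X.Opens} (hU : IsAffineOpen U) [Nonempty U] {f e : X.functionFieldˣ}
    (hfe : ∀ y ∈ U, D.IsLocalEq y f ∧ E.IsLocalEq y e) (g : X.functionField)
    (hg : ∀ x ∈ U, x ∉ D.support → g ∈ E.stalkLattice x) :
    ∃ n : ℕ, ∀ m, n ≤ m → ∀ y ∈ U, g ∈ (E * D ^ m).stalkLattice y := by
  have hf : (f : X.functionField) ∈ regularOn X (U : Set X) :=
    mem_regularOn.2 fun y hy => hD y f (hfe y hy).1
  obtain ⟨n, hn⟩ := exists_pow_mul_mem_regularOn hU f hf (g * (e : X.functionField)) (by
    intro y hy hfu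
    have hns : y ∉ D.support := (notMem_support_iff_of_isLocalEq (hfe y hy).1).2 hfu
    exact (mem_stalkLattice_iff_of_isLocalEq (hfe y hy).2).1 (hg y hy hns))
  refine ⟨n, fun m hm y hy => ?_⟩
  rw [mem_stalkLattice_iff_of_isLocalEq ((hfe y hy).2.mul ((hfe y hy).1.pow m))]
  obtain ⟨k, rfl⟩ := Nat.exists_eq_add_of_le hm
  have : g * ((e * f ^ (n + k) : X.functionFieldˣ) : X.functionField) =
      (g * (e : X.functionField) * (f : X.functionField) ^ n) * (f : X.functionField) ^ k := by
    push_cast; ring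
  rw [this]
  exact (stalkSubring X y).mul_mem (mem_regularOn.1 hn y hy)
    ((stalkSubring X y).pow_mem (hD y f (hfe y hy).1) k)

/-- **Extension lemma** (Hartshorne II.5.14), function-field form: on a quasi-compact integral
scheme, a section of `O(E)` over the complement of the support of an effective Cartier divisor
`D` is a global section of `O(E + mD)` for all `m ≫ 0`. -/
theorem exists_forall_mem_H0_mul_pow [CompactSpace X] {D : CaDiv X} (hD : D.IsEffective)
    (E : CaDiv X) (g : X.functionField)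
    (hg : ∀ x, x ∉ D.support → g ∈ E.stalkLattice x) :
    ∃ n : ℕ, ∀ m, n ≤ m → g ∈ (E * D ^ m).H0 := by
  classical
  choose U hUaff hxU f e hfe using fun x : X => exists_affine_isLocalEq₂ D E x
  have hne : ∀ x, Nonempty (U x) := fun x => ⟨⟨x, hxU x⟩⟩
  choose n hn using fun x : X =>
    exists_forall_mem_stalkLattice_of_affine hD (hUaff x) (hfe x) g (fun y _ hy => hg y hy)
  obtain ⟨t, ht⟩ := isCompact_univ.elim_finite_subcover (fun x : X => ((U x : X.Opens) : Set X))
    (fun x => (U x).isOpen) (fun x _ => Set.mem_iUnion.2 ⟨x, hxU x⟩)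
  refine ⟨t.sup n, fun m hm => mem_H0.2 fun y => ?_⟩
  obtain ⟨x, hx⟩ := Set.mem_iUnion.1 (ht (Set.mem_univ y))
  obtain ⟨hxt, hyx⟩ := Set.mem_iUnion.1 hx
  exact hn x m ((Finset.le_sup hxt).trans hm) y hyx

theorem exists_mem_H0_mul_pow [CompactSpace X] {D : CaDiv X} (hD : D.IsEffective)
    (E : CaDiv X) (g : X.functionField)
    (hg : ∀ x, x ∉ D.support → g ∈ E.stalkLattice x) :
    ∃ n : ℕ, g ∈ (E * D ^ n).H0 := by
  obtain ⟨n, hn⟩ := exists_forall_mem_H0_mul_pow hD E g hg
  exact ⟨n, hn n le_rfl⟩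

/-- Special case `E = 0`: a rational function regular on `X \ Supp D` lies in `H0 (nD)`
for `n ≫ 0`. -/
theorem exists_forall_mem_H0_pow [CompactSpace X] {D : CaDiv X} (hD : D.IsEffective)
    (g : X.functionField) (hg : g ∈ regularOn X D.supportᶜ) :
    ∃ n : ℕ, ∀ m, n ≤ m → g ∈ (D ^ m).H0 := by
  obtain ⟨n, hn⟩ := exists_forall_mem_H0_mul_pow hD 1 g
    (fun x hx => (stalkLattice_one x).2 (mem_regularOn.1 hg x hx))
  exact ⟨n, fun m hm => by simpa using hn m hm⟩

/-- Finite families: finitely many rational functions regular on `X \ Supp D` lie in a common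
`H0 (nD)`. -/
theorem exists_forall_mem_H0_pow_of_finite [CompactSpace X] {D : CaDiv X} (hD : D.IsEffective)
    {ι : Type*} [Finite ι] (g : ι → X.functionField)
    (hg : ∀ i, g i ∈ regularOn X D.supportᶜ) :
    ∃ n : ℕ, ∀ m, n ≤ m → ∀ i, g i ∈ (D ^ m).H0 := by
  classical
  cases nonempty_fintype ι
  choose n hn using fun i => exists_forall_mem_H0_pow hD (g i) (hg i)
  exact ⟨Finset.univ.sup n, fun m hm i => hn i m ((Finset.le_sup (Finset.mem_univ i)).trans hm)⟩

/-- Finite families with a twist `E`. -/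
theorem exists_forall_mem_H0_mul_pow_of_finite [CompactSpace X] {D : CaDiv X}
    (hD : D.IsEffective) (E : CaDiv X) {ι : Type*} [Finite ι] (g : ι → X.functionField)
    (hg : ∀ i, ∀ x, x ∉ D.support → g i ∈ E.stalkLattice x) :
    ∃ n : ℕ, ∀ m, n ≤ m → ∀ i, g i ∈ (E * D ^ m).H0 := by
  classical
  cases nonempty_fintype ι
  choose n hn using fun i => exists_forall_mem_H0_mul_pow hD E (g i) (hg i)
  exact ⟨Finset.univ.sup n, fun m hm i => hn i m ((Finset.le_sup (Finset.mem_univ i)).trans hm)⟩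

end CaDiv

end Fermat.Agent.AV.PicDiv86
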