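import Fermat.Agent.AV.PicDiv86.Presentation

/-!
# PIC-div, part 5c: the class map `cl : CaDiv X →* Pic X`

* `Presentation.nonempty_tensorStr` : `O(D) ⊗ O(E) = O(D + E)`;
* `Presentation.nonempty_iso` : `O(D)` is unique up to isomorphism;
* `cl : CaDiv X →* Pic X`, `cl_eq_mk`, `cl_div`, `cl_eq_one_iff`, `cl_eq_cl_iff`
  (kernel = principal divisors);
* `map_cl` : `Pic.map φ (cl D) = cl (φ^* D)` for dominant `φ`.
-/

set_option autoImplicit false

universe u

open AlgebraicGeometry CategoryTheory TopologicalSpace Opposite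

namespace Fermat.Agent.AV.PicDiv86

open Fermat.Agent.Jac.ModGlue88 Fermat.Agent.AV.Pic38 LocalIsoU

variable {X Y : Scheme.{u}} [IsIntegral X] [IsIntegral Y]

namespace Presentation

variable {D E : CaDiv X} {P Q R P' : X.Modules}

/-! ### Tensor products -/

section Tensor

variable (p : Presentation D P) (q : Presentation E Q) (r : Presentation (D * E) R)

/-- The common refinement of the three covers. -/
def W₃ (t : p.ι × q.ι × r.ι) : X.Opens := p.W t.1 ⊓ q.W t.2.1 ⊓ r.W t.2.2

lemma W₃_le₁ (t : p.ι × q.ι × r.ι) : W₃ p q r t ≤ p.W t.1 := inf_le_left.trans inf_le_left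
lemma W₃_le₂ (t : p.ι × q.ι × r.ι) : W₃ p q r t ≤ q.W t.2.1 := inf_le_left.trans inf_le_right
lemma W₃_le₃ (t : p.ι × q.ι × r.ι) : W₃ p q r t ≤ r.W t.2.2 := inf_le_right

lemma W₃_cover : iSup (W₃ p q r) = ⊤ := by
  apply top_le_iff.mp
  intro x _
  obtain ⟨i, hi⟩ := p.exists_mem x
  obtain ⟨j, hj⟩ := q.exists_mem x
  obtain ⟨k, hk⟩ := r.exists_mem x
  exact Opens.mem_iSup.2 ⟨(i, j, k), ⟨⟨hi, hj⟩, hk⟩⟩

lemma corr_mem (t : p.ι × q.ι × r.ι) :
    ∀ y ∈ W₃ p q r t, r.f t.2.2 * (p.f t.1 * q.f t.2.1)⁻¹ ∈ stalkUnits X y := by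
  intro y hy
  have h1 := (p.isLocalEq t.1 y (W₃_le₁ p q r t hy)).mul (q.isLocalEq t.2.1 y (W₃_le₂ p q r t hy))
  have h2 := r.isLocalEq t.2.2 y (W₃_le₃ p q r t hy)
  have := h1.div_mem h2
  rwa [mul_comm] at this

/-- The correction unit `f''_k / (f_i f'_j)`. -/
noncomputable def corr (t : p.ι × q.ι × r.ι) : (Γ(X, W₃ p q r t))ˣ :=
  unitOfGerm (W₃ p q r t) (r.f t.2.2 * (p.f t.1 * q.f t.2.1)⁻¹) (corr_mem p q r t)

lemma isUnitGerm_corr (t : p.ι × q.ι × r.ι) :
    IsUnitGerm (W₃ p q r t) (corr p q r t) (r.f t.2.2 * (p.f t.1 * q.f t.2.1)⁻¹) :=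
  isUnitGerm_unitOfGerm _ _ _

include p q r in
/-- `O(D) ⊗ O(E) = O(D + E)`. -/
theorem nonempty_tensorStr : Nonempty (TensorStr P Q R) := by
  refine ⟨CoverData.tensorStr
    { ι := p.ι × q.ι × r.ι
      W := W₃ p q r
      cover := W₃_cover p q r
      a := fun t => (p.c t.1).restrict (W₃_le₁ p q r t)
      b := fun t => (q.c t.2.1).restrict (W₃_le₂ p q r t)
      c := fun t => smul (corr p q r t) ((r.c t.2.2).restrict (W₃_le₃ p q r t))
      coc := fun t t' => ?_ }⟩
  rw [smul_restrict, smul_restrict, tratio_smul_left, tratio_smul_right]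
  simp only [LocalIso.restrict_restrict']
  have hA := p.isUnitGerm_tratio t.1 t'.1 (W₃ p q r t ⊓ W₃ p q r t')
    (inf_le_left.trans (W₃_le₁ p q r t)) (inf_le_right.trans (W₃_le₁ p q r t'))
  have hB := q.isUnitGerm_tratio t.2.1 t'.2.1 (W₃ p q r t ⊓ W₃ p q r t')
    (inf_le_left.trans (W₃_le₂ p q r t)) (inf_le_right.trans (W₃_le₂ p q r t'))
  have hC := r.isUnitGerm_tratio t.2.2 t'.2.2 (W₃ p q r t ⊓ W₃ p q r t')
    (inf_le_left.trans (W₃_le₃ p q r t)) (inf_le_right.trans (W₃_le₃ p q r t'))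
  have hv := (isUnitGerm_corr p q r t).resU (inf_le_left : W₃ p q r t ⊓ W₃ p q r t' ≤ _)
  have hv' := (isUnitGerm_corr p q r t').resU (inf_le_right : W₃ p q r t ⊓ W₃ p q r t' ≤ _)
  refine ((hv.inv.mul (hv'.mul hC)).congr ?_).ext (hA.mul hB)
  simp only [mul_inv_rev, inv_inv]
  -- everything is commutative: move to the additive-free normal form
  have : ∀ a b c a' b' c' : X.functionFieldˣ,
      a * b * c⁻¹ * (c' * (b'⁻¹ * a'⁻¹) * (c * c'⁻¹)) = a * a'⁻¹ * (b * b'⁻¹) := by
    intro a b c a' b' c'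
    have h1 : a * b * c⁻¹ * (c' * (b'⁻¹ * a'⁻¹) * (c * c'⁻¹)) =
        (a * a'⁻¹ * (b * b'⁻¹)) * ((c⁻¹ * c) * (c' * c'⁻¹)) := by
      simp only [mul_comm, mul_left_comm, mul_assoc]
    rw [h1, inv_mul_cancel, mul_inv_cancel, one_mul, mul_one]
  exact this _ _ _ _ _ _

end Tensor

/-! ### Uniqueness -/

/-- `O(D)` is unique up to isomorphism. -/
theorem nonempty_iso (p : Presentation D P) (p' : Presentation D P') : Nonempty (P ≅ P') := by
  obtain ⟨t⟩ := nonempty_tensorStr p (unit X) (p'.copy (mul_one D).symm)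
  exact TensorStr.nonempty_iso p.isInvertible (Scheme.Modules.isInvertible_unit X)
    (TensorStr.unitLeft P).swap t

/-! ### Principal divisors -/

/-- `O(div h) ≅ O`. -/
noncomputable def ofDiv (h : X.functionFieldˣ) : Presentation (CaDiv.div h) (unitMod X) :=
  ((unit X).twist h).copy (mul_one _)

/-- The rational function of a unit on a nonempty open. -/
noncomputable def germUnit (U : X.Opens) [Nonempty U] : (Γ(X, U))ˣ →* X.functionFieldˣ :=
  Units.map (X.germToFunctionField U).hom.toMonoidHom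

omit [IsIntegral X] in
lemma isUnitGerm_germUnit [IsIntegral X] (U : X.Opens) [Nonempty U] (u : (Γ(X, U))ˣ) :
    IsUnitGerm U u (germUnit U u) := fun y hy => germF_eq_germToFunctionField _ y hy

omit [IsIntegral X] in
lemma mul_eq_mul_of_mul_inv_eq {G : Type*} [CommGroup G] {a b w₀ w : G}
    (h : a * b⁻¹ = w₀⁻¹ * w) : a * w₀ = b * w := by
  have h1 : a = w₀⁻¹ * w * b := by rw [← h, inv_mul_cancel_right]
  rw [h1, mul_comm (w₀⁻¹ * w * b) w₀, ← mul_assoc, ← mul_assoc, mul_inv_cancel, one_mul, mul_comm]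

/-- If `O(D)` is trivial then `D` is principal. -/
theorem exists_eq_div (p : Presentation D (unitMod X)) : ∃ h : X.functionFieldˣ, D = CaDiv.div h := by
  classical
  -- the units comparing the trivialisations with the identity
  let v : ∀ i, (Γ(X, p.W i))ˣ := fun i => tratio (LocalIso.refl (unitMod X) (p.W i)) (p.c i)
  have hv : ∀ i, p.c i = smul (v i) (LocalIso.refl (unitMod X) (p.W i)) :=
    fun i => (tratio_smul _ _).symm
  -- transition units in terms of the `v i`
  have htr : ∀ i j, tratio ((p.c i).restrict (inf_le_left : p.W i ⊓ p.W j ≤ p.W i))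
      ((p.c j).restrict (inf_le_right : p.W i ⊓ p.W j ≤ p.W j)) =
      (resU X inf_le_left (v i))⁻¹ * resU X inf_le_right (v j) := by
    intro i j
    rw [hv i, hv j, smul_restrict, smul_restrict, LocalIso.refl_restrict, LocalIso.refl_restrict,
      tratio_smul_left, tratio_smul_right, tratio_self, mul_one]
  -- a chart containing the generic point
  obtain ⟨i₀, hi₀⟩ := p.exists_mem (genericPoint X)
  have hne : ∀ i, genericPoint X ∈ p.W i → Nonempty (p.W i) := fun i hi => ⟨⟨_, hi⟩⟩
  have := hne i₀ hi₀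
  refine ⟨p.f i₀ * germUnit (p.W i₀) (v i₀), ?_⟩
  apply CaDiv.ext
  intro y
  obtain ⟨j, hj⟩ := p.exists_mem y
  have hgj : genericPoint X ∈ p.W j :=
    ((genericPoint_spec X).mem_open_set_iff (p.W j).isOpen).2 ⟨y, trivial, hj⟩
  have := hne j hgj
  have hne' : Nonempty (p.W i₀ ⊓ p.W j : X.Opens) := ⟨⟨genericPoint X, hi₀, hgj⟩⟩
  -- compare the two descriptions of the transition unit on `W i₀ ⊓ W j`
  have h1 := p.transition i₀ j
  rw [htr] at h1
  have h2 : IsUnitGerm (p.W i₀ ⊓ p.W j)
      ((resU X inf_le_left (v i₀))⁻¹ * resU X inf_le_right (v j))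
      ((germUnit (p.W i₀) (v i₀))⁻¹ * germUnit (p.W j) (v j)) :=
    ((isUnitGerm_germUnit _ (v i₀)).resU inf_le_left).inv.mul
      ((isUnitGerm_germUnit _ (v j)).resU inf_le_right)
  have h3 := IsUnitGerm.eq_of_nonempty hne' h1 h2
  -- hence `f i₀ * w i₀ = f j * w j`
  have h4 : p.f i₀ * germUnit (p.W i₀) (v i₀) = p.f j * germUnit (p.W j) (v j) :=
    mul_eq_mul_of_mul_inv_eq h3
  rw [h4]
  change D.IsLocalEq y _
  rw [CaDiv.isLocalEq_iff_of_isLocalEq (p.isLocalEq j y hj), inv_mul_cancel_left]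
  exact (isUnitGerm_germUnit _ (v j)).mem_stalkUnits hj

/-! ### Pull-back -/

/-- Pull-back of a presentation along a dominant morphism: `φ^* O(D) = O(φ^* D)`. -/
noncomputable def pullback (φ : Y ⟶ X) [IsDominant φ] (p : Presentation D P) :
    Presentation (CaDiv.pullback φ D) ((Scheme.Modules.pullback φ).obj P) where
  ι := p.ι
  W i := φ ⁻¹ᵁ p.W i
  cover := by
    apply top_le_iff.mp
    intro y _
    obtain ⟨i, hi⟩ := p.exists_mem (φ y)
    exact Opens.mem_iSup.2 ⟨i, hi⟩
  f i := unitsMap φ (p.f i)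
  isLocalEq i y hy := (p.isLocalEq i (φ y) hy).pullback
  c i := pullTriv φ (p.c i)
  transition i j := by
    change IsUnitGerm (φ ⁻¹ᵁ (p.W i ⊓ p.W j))
      (tratio ((pullTriv φ (p.c i)).restrict
          (φ.preimage_mono (inf_le_left : p.W i ⊓ p.W j ≤ p.W i)))
        ((pullTriv φ (p.c j)).restrict
          (φ.preimage_mono (inf_le_right : p.W i ⊓ p.W j ≤ p.W j)))) _
    rw [pullTriv_restrict, pullTriv_restrict, tratio_pullTriv]
    exact ((p.transition i j).appU φ).congr (by rw [map_mul, map_inv])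

end Presentation

/-! ### The class map -/

/-- A chosen model of `O(D)`. -/
noncomputable def clModule (D : CaDiv X) : X.Modules := (exists_presentation D).choose

/-- The presentation of the chosen model of `O(D)`. -/
noncomputable def clPresentation (D : CaDiv X) : Presentation D (clModule D) :=
  (exists_presentation D).choose_spec.some

theorem isInvertible_clModule (D : CaDiv X) : Scheme.Modules.IsInvertible (clModule D) :=
  (clPresentation D).isInvertible

/-- The class of `O(D)` in the Picard group, as a function. -/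
noncomputable def clFun (D : CaDiv X) : Pic X := Pic.mk (clModule D) (isInvertible_clModule D)

theorem clFun_eq_mk {D : CaDiv X} {P : X.Modules} (p : Presentation D P) :
    clFun D = Pic.mk P p.isInvertible :=
  (Pic.mk_eq_mk_iff _ _).2 ((clPresentation D).nonempty_iso p)

/-- The class map from Cartier divisors to the Picard group. -/
noncomputable def cl : CaDiv X →* Pic X where
  toFun := clFun
  map_one' := by
    rw [clFun_eq_mk (Presentation.unit X)]; rfl
  map_mul' D E := by
    obtain ⟨t⟩ := Presentation.nonempty_tensorStr (clPresentation D) (clPresentation E)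
      (clPresentation (D * E))
    change clFun (D * E) = Pic.mk _ (isInvertible_clModule D) * Pic.mk _ (isInvertible_clModule E)
    rw [Pic.mk_mul_mk _ _ t]
    rfl

/-- `cl D` is the class of any model of `O(D)`. -/
theorem cl_eq_mk {D : CaDiv X} {P : X.Modules} (p : Presentation D P) :
    cl D = Pic.mk P p.isInvertible := clFun_eq_mk p

/-- Principal divisors have trivial class. -/
theorem cl_div (h : X.functionFieldˣ) : cl (CaDiv.div h : CaDiv X) = 1 := by
  rw [cl_eq_mk (Presentation.ofDiv h)]; rfl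

/-- The kernel of `cl` consists of the principal divisors. -/
theorem cl_eq_one_iff {D : CaDiv X} : cl D = 1 ↔ ∃ h : X.functionFieldˣ, D = CaDiv.div h := by
  constructor
  · intro h
    change Pic.mk (clModule D) (isInvertible_clModule D) = 1 at h
    rw [Pic.mk_eq_one_iff] at h
    obtain ⟨e⟩ := h
    exact ((clPresentation D).ofIso e).exists_eq_div
  · rintro ⟨h, rfl⟩
    exact cl_div h

/-- Two divisors have the same class iff they are linearly equivalent. -/
theorem cl_eq_cl_iff {D E : CaDiv X} :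
    cl D = cl E ↔ ∃ h : X.functionFieldˣ, D = CaDiv.div h * E := by
  rw [← div_eq_one, ← map_div, cl_eq_one_iff]
  constructor
  · rintro ⟨h, hh⟩
    exact ⟨h, by rw [← hh, div_mul_cancel]⟩
  · rintro ⟨h, rfl⟩
    exact ⟨h, by rw [mul_div_assoc, div_self', mul_one]⟩

/-- Compatibility of `cl` with pull-back along dominant morphisms. -/
theorem map_cl (φ : Y ⟶ X) [IsDominant φ] (D : CaDiv X) :
    Pic.map φ (cl D) = cl (CaDiv.pullback φ D) := by
  rw [cl_eq_mk (clPresentation D), Pic.map_mk, cl_eq_mk ((clPresentation D).pullback φ)]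

end Fermat.Agent.AV.PicDiv86
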