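import Fermat.Agent.AV.PicDiv86.H0

/-!
# PIC-div, part 3: pull-back of Cartier divisors and of their sections along dominant morphisms

For a dominant morphism `φ : Y ⟶ X` of integral schemes:

* `functionFieldMap φ : X.functionField →+* Y.functionField` (injective, a field embedding);
* `CaDiv.pullback φ : CaDiv X →* CaDiv Y`;
* `g ∈ D.H0 → functionFieldMap φ g ∈ (pullback φ D).H0` (and this is injective);
* effectivity and supports, functoriality.
-/

set_option autoImplicit false

universe u

open AlgebraicGeometry CategoryTheory TopologicalSpace Opposite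

namespace Fermat.Agent.AV.PicDiv86

variable {X Y Z : Scheme.{u}} [IsIntegral X] [IsIntegral Y] [IsIntegral Z]

/-- A dominant morphism of integral schemes maps the generic point to the generic point. -/
theorem map_genericPoint (φ : Y ⟶ X) [IsDominant φ] :
    φ (genericPoint Y) = genericPoint X := by
  apply ((genericPoint_spec X).eq _).symm
  have h := (genericPoint_spec Y).image φ.continuous
  rwa [Set.image_univ, φ.denseRange.closure_range] at h

theorem genericPoint_mem_preimage (φ : Y ⟶ X) [IsDominant φ] (U : X.Opens) [hU : Nonempty U] :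
    genericPoint Y ∈ φ ⁻¹ᵁ U := by
  change φ (genericPoint Y) ∈ U
  rw [map_genericPoint]
  exact ((genericPoint_spec X).mem_open_set_iff U.isOpen).2 (by simpa using hU)

instance nonempty_preimage (φ : Y ⟶ X) [IsDominant φ] (U : X.Opens) [Nonempty U] :
    Nonempty (φ ⁻¹ᵁ U : Y.Opens) := ⟨⟨_, genericPoint_mem_preimage φ U⟩⟩

/-- The embedding of function fields induced by a dominant morphism of integral schemes. -/
noncomputable def functionFieldMap (φ : Y ⟶ X) [IsDominant φ] :
    X.functionField →+* Y.functionField :=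
  (X.presheaf.stalkSpecializes (specializes_of_eq (map_genericPoint φ)) ≫
    φ.stalkMap (genericPoint Y)).hom

theorem functionFieldMap_germ (φ : Y ⟶ X) [IsDominant φ] (U : X.Opens) [Nonempty U]
    (s : Γ(X, U)) :
    functionFieldMap φ (X.germToFunctionField U s) =
      Y.germToFunctionField (φ ⁻¹ᵁ U) (φ.app U s) := by
  have hU : genericPoint X ∈ U :=
    ((genericPoint_spec X).mem_open_set_iff U.isOpen).2 (by simpa using ‹Nonempty U›)
  have hU' : φ (genericPoint Y) ∈ U := by rw [map_genericPoint]; exact hU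
  change φ.stalkMap (genericPoint Y) (X.presheaf.stalkSpecializes _
    (X.presheaf.germ U (genericPoint X) hU s)) = _
  rw [TopCat.Presheaf.germ_stalkSpecializes_apply]
  exact Scheme.Hom.germ_stalkMap_apply φ U (genericPoint Y) hU' s

theorem functionFieldMap_injective (φ : Y ⟶ X) [IsDominant φ] :
    Function.Injective (functionFieldMap φ) :=
  (functionFieldMap φ).injective

/-- Compatibility with the local rings: `φ^♯` maps `O_{X,φ y}` to `O_{Y,y}` by the stalk map. -/
theorem functionFieldMap_algebraMap (φ : Y ⟶ X) [IsDominant φ] (y : Y)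
    (t : X.presheaf.stalk (φ y)) :
    functionFieldMap φ (algebraMap (X.presheaf.stalk (φ y)) X.functionField t) =
      algebraMap (Y.presheaf.stalk y) Y.functionField (φ.stalkMap y t) := by
  obtain ⟨U, hyU, s, rfl⟩ := X.presheaf.exists_germ_eq t
  have : Nonempty U := ⟨⟨_, hyU⟩⟩
  rw [Scheme.algebraMap_germ_eq_germToFunctionField X hyU s, functionFieldMap_germ,
    Scheme.Hom.germ_stalkMap_apply φ U y hyU s,
    Scheme.algebraMap_germ_eq_germToFunctionField Y (U := φ ⁻¹ᵁ U) hyU]

theorem functionFieldMap_mem_stalkSubring (φ : Y ⟶ X) [IsDominant φ] {y : Y}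
    {f : X.functionField} (hf : f ∈ stalkSubring X (φ y)) :
    functionFieldMap φ f ∈ stalkSubring Y y := by
  obtain ⟨t, rfl⟩ := hf
  exact ⟨φ.stalkMap y t, (functionFieldMap_algebraMap φ y t).symm⟩

theorem functionFieldMap_mem_regularOn (φ : Y ⟶ X) [IsDominant φ] {U : Set X}
    {f : X.functionField} (hf : f ∈ regularOn X U) :
    functionFieldMap φ f ∈ regularOn Y (φ ⁻¹' U) :=
  mem_regularOn.2 fun y hy => functionFieldMap_mem_stalkSubring φ (mem_regularOn.1 hf (φ y) hy)

/-- The induced map on units of the function fields. -/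
noncomputable def unitsMap (φ : Y ⟶ X) [IsDominant φ] : X.functionFieldˣ →* Y.functionFieldˣ :=
  Units.map (functionFieldMap φ).toMonoidHom

@[simp] theorem coe_unitsMap (φ : Y ⟶ X) [IsDominant φ] (f : X.functionFieldˣ) :
    ((unitsMap φ f : Y.functionFieldˣ) : Y.functionField) = functionFieldMap φ f := rfl

theorem unitsMap_mem_stalkUnits (φ : Y ⟶ X) [IsDominant φ] {y : Y} {f : X.functionFieldˣ}
    (hf : f ∈ stalkUnits X (φ y)) : unitsMap φ f ∈ stalkUnits Y y := by
  rw [mem_stalkUnits_iff] at hf ⊢
  refine ⟨functionFieldMap_mem_stalkSubring φ hf.1, ?_⟩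
  rw [← map_inv]
  exact functionFieldMap_mem_stalkSubring φ hf.2

/-- If `f ∈ O_{X,φ y}` is not a unit there, its pull-back is not a unit of `O_{Y,y}`
(the stalk maps are local). -/
theorem unitsMap_mem_stalkUnits_iff (φ : Y ⟶ X) [IsDominant φ] {y : Y} {f : X.functionFieldˣ}
    (hf : (f : X.functionField) ∈ stalkSubring X (φ y)) :
    unitsMap φ f ∈ stalkUnits Y y ↔ f ∈ stalkUnits X (φ y) := by
  refine ⟨fun h => ?_, unitsMap_mem_stalkUnits φ⟩
  obtain ⟨t, ht⟩ := hf
  rw [mem_stalkUnits_iff_isUnit t f ht]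
  have h2 : algebraMap (Y.presheaf.stalk y) Y.functionField (φ.stalkMap y t) =
      (unitsMap φ f : Y.functionFieldˣ) := by
    rw [← functionFieldMap_algebraMap, ht]; rfl
  have h3 := (mem_stalkUnits_iff_isUnit _ _ h2).1 h
  exact (isUnit_map_iff (φ.stalkMap y).hom t).1 h3

namespace CaDiv

/-- The pull-back of local classes along a dominant morphism. -/
noncomputable def pullbackGerm (φ : Y ⟶ X) [IsDominant φ] (y : Y) :
    X.functionFieldˣ ⧸ stalkUnits X (φ y) →* Y.functionFieldˣ ⧸ stalkUnits Y y :=
  QuotientGroup.map _ _ (unitsMap φ) fun _ hf => unitsMap_mem_stalkUnits φ hf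

@[simp] theorem pullbackGerm_mk (φ : Y ⟶ X) [IsDominant φ] (y : Y) (f : X.functionFieldˣ) :
    pullbackGerm φ y (QuotientGroup.mk f) = QuotientGroup.mk (unitsMap φ f) := rfl

/-- Pull-back of Cartier divisors along a dominant morphism of integral schemes. -/
noncomputable def pullback (φ : Y ⟶ X) [IsDominant φ] : CaDiv X →* CaDiv Y where
  toFun D := ⟨fun y => pullbackGerm φ y (D.germ (φ y)), fun y => by
    obtain ⟨U, hU, f, hf⟩ := D.exists_open_isLocalEq (φ y)
    refine ⟨φ ⁻¹ᵁ U, hU, unitsMap φ f, fun z hz => ?_⟩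
    change pullbackGerm φ z (D.germ (φ z)) = _
    rw [hf (φ z) hz]; rfl⟩
  map_one' := by
    apply CaDiv.ext; intro y
    change pullbackGerm φ y 1 = 1
    exact map_one _
  map_mul' D E := by
    apply CaDiv.ext; intro y
    change pullbackGerm φ y (D.germ (φ y) * E.germ (φ y)) = _
    rw [map_mul]; rfl

theorem germ_pullback (φ : Y ⟶ X) [IsDominant φ] (D : CaDiv X) (y : Y) :
    (pullback φ D).germ y = pullbackGerm φ y (D.germ (φ y)) := rfl

theorem IsLocalEq.pullback {φ : Y ⟶ X} [IsDominant φ] {D : CaDiv X} {y : Y}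
    {f : X.functionFieldˣ} (hf : D.IsLocalEq (φ y) f) :
    (pullback φ D).IsLocalEq y (unitsMap φ f) := by
  unfold IsLocalEq at *
  rw [germ_pullback, hf]; rfl

theorem pullback_div (φ : Y ⟶ X) [IsDominant φ] (f : X.functionFieldˣ) :
    pullback φ (div f) = div (unitsMap φ f) := by
  apply CaDiv.ext; intro y; rfl

theorem IsEffective.pullback {φ : Y ⟶ X} [IsDominant φ] {D : CaDiv X} (hD : D.IsEffective) :
    (pullback φ D).IsEffective :=
  isEffective_of_exists fun y => by
    obtain ⟨f, hf⟩ := D.exists_isLocalEq (φ y)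
    exact ⟨unitsMap φ f, hf.pullback, functionFieldMap_mem_stalkSubring φ (hD _ f hf)⟩

theorem support_pullback_subset (φ : Y ⟶ X) [IsDominant φ] (D : CaDiv X) :
    (pullback φ D).support ⊆ φ ⁻¹' D.support := by
  intro y hy
  by_contra h
  apply hy
  rw [germ_pullback, notMem_support_iff.1 h]
  exact map_one _

/-- For an effective divisor, the support of the pull-back is the preimage of the support. -/
theorem support_pullback (φ : Y ⟶ X) [IsDominant φ] {D : CaDiv X} (hD : D.IsEffective) :
    (pullback φ D).support = φ ⁻¹' D.support := by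
  refine (support_pullback_subset φ D).antisymm fun y hy => ?_
  obtain ⟨f, hf⟩ := D.exists_isLocalEq (φ y)
  by_contra h
  apply hy
  rw [notMem_support_iff_of_isLocalEq hf.pullback] at h
  exact notMem_support_iff.1 ((notMem_support_iff_of_isLocalEq hf).2
    ((unitsMap_mem_stalkUnits_iff φ (hD _ f hf)).1 h))

theorem map_mem_stalkLattice (φ : Y ⟶ X) [IsDominant φ] {D : CaDiv X} {y : Y}
    {g : X.functionField} (hg : g ∈ D.stalkLattice (φ y)) :
    functionFieldMap φ g ∈ (pullback φ D).stalkLattice y := by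
  obtain ⟨f, hf⟩ := D.exists_isLocalEq (φ y)
  rw [mem_stalkLattice_iff_of_isLocalEq hf.pullback, coe_unitsMap, ← map_mul]
  exact functionFieldMap_mem_stalkSubring φ (hg f hf)

/-- Pull-back of sections: `φ^♯` maps `H0 D` into `H0 (φ^* D)` (injectively). -/
theorem map_mem_H0 (φ : Y ⟶ X) [IsDominant φ] {D : CaDiv X} {g : X.functionField}
    (hg : g ∈ D.H0) : functionFieldMap φ g ∈ (pullback φ D).H0 :=
  mem_H0.2 fun y => map_mem_stalkLattice φ (mem_H0.1 hg (φ y))

section Module

variable (R : Type*) [CommSemiring R] [Algebra R X.functionField] [Algebra R Y.functionField]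

/-- Pull-back of sections as an injective `R`-linear map `H0 D → H0 (φ^* D)`. -/
noncomputable def H0Pullback (φ : Y ⟶ X) [IsDominant φ]
    (hRX : ∀ r : R, algebraMap R X.functionField r ∈ regularOn X Set.univ)
    (hRY : ∀ r : R, algebraMap R Y.functionField r ∈ regularOn Y Set.univ)
    (hφ : ∀ r : R, functionFieldMap φ (algebraMap R X.functionField r) =
      algebraMap R Y.functionField r) (D : CaDiv X) :
    H0Submodule R hRX D →ₗ[R] H0Submodule R hRY (pullback φ D) where
  toFun g := ⟨functionFieldMap φ g.1, map_mem_H0 φ g.2⟩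
  map_add' a b := by ext; simp
  map_smul' r a := by
    ext
    simp [Algebra.smul_def, hφ]

theorem H0Pullback_injective (φ : Y ⟶ X) [IsDominant φ]
    (hRX : ∀ r : R, algebraMap R X.functionField r ∈ regularOn X Set.univ)
    (hRY : ∀ r : R, algebraMap R Y.functionField r ∈ regularOn Y Set.univ)
    (hφ : ∀ r : R, functionFieldMap φ (algebraMap R X.functionField r) =
      algebraMap R Y.functionField r) (D : CaDiv X) :
    Function.Injective (H0Pullback R φ hRX hRY hφ D) := by
  intro a b h
  apply Subtype.ext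
  apply functionFieldMap_injective φ
  exact congrArg Subtype.val h

end Module

end CaDiv

/-! ### Functoriality -/

theorem functionFieldMap_ext {φ : Y ⟶ X} [IsDominant φ] {ψ : X.functionField →+* Y.functionField}
    (h : ∀ (U : X.Opens) (_ : Nonempty U) (s : Γ(X, U)),
      ψ (X.germToFunctionField U s) = Y.germToFunctionField (φ ⁻¹ᵁ U) (φ.app U s)) :
    functionFieldMap φ = ψ := by
  ext f
  obtain ⟨U, hU, s, rfl⟩ := X.presheaf.exists_germ_eq f
  have : Nonempty U := ⟨⟨_, hU⟩⟩
  exact (functionFieldMap_germ φ U s).trans (h U ‹_› s).symm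

theorem functionFieldMap_id : functionFieldMap (𝟙 X) = RingHom.id _ := by
  apply functionFieldMap_ext
  intro U _ s
  rfl

theorem functionFieldMap_comp (ψ : Z ⟶ Y) (φ : Y ⟶ X) [IsDominant ψ] [IsDominant φ] :
    functionFieldMap (ψ ≫ φ) = (functionFieldMap ψ).comp (functionFieldMap φ) := by
  apply functionFieldMap_ext
  intro U _ s
  rw [RingHom.comp_apply, functionFieldMap_germ, functionFieldMap_germ]
  rfl

namespace CaDiv

theorem pullback_id (D : CaDiv X) : pullback (𝟙 X) D = D := by
  apply CaDiv.ext; intro x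
  obtain ⟨f, hf⟩ := D.exists_isLocalEq x
  have h1 : (pullback (𝟙 X) D).IsLocalEq x (unitsMap (𝟙 X) f) := IsLocalEq.pullback (y := x) hf
  have h2 : unitsMap (𝟙 X) f = f := by
    ext; simp [functionFieldMap_id]
  rw [h2] at h1
  exact h1.trans hf.symm

theorem pullback_comp (ψ : Z ⟶ Y) (φ : Y ⟶ X) [IsDominant ψ] [IsDominant φ] (D : CaDiv X) :
    pullback (ψ ≫ φ) D = pullback ψ (pullback φ D) := by
  apply CaDiv.ext; intro z
  obtain ⟨f, hf⟩ := D.exists_isLocalEq (φ (ψ z))
  have h1 : (pullback (ψ ≫ φ) D).IsLocalEq z (unitsMap (ψ ≫ φ) f) :=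
    IsLocalEq.pullback (φ := ψ ≫ φ) (y := z) hf
  have h2 : (pullback ψ (pullback φ D)).IsLocalEq z (unitsMap ψ (unitsMap φ f)) :=
    (IsLocalEq.pullback (y := ψ z) hf).pullback
  have h3 : unitsMap (ψ ≫ φ) f = unitsMap ψ (unitsMap φ f) := by
    ext; simp [functionFieldMap_comp]
  rw [h3] at h1
  exact h1.trans h2.symm

end CaDiv

end Fermat.Agent.AV.PicDiv86
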