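import Fermat.Agent.AV.PicDiv86.Pullback
import Fermat.Prelude.Def_GoodReductionJacobian_RelativeGroupLawKernel

/-!
# PIC-div, part 6: symmetric effective divisors with affine complement

* `CaDiv.support_mul_of_isEffective` : `Supp (D + E) = Supp D ∪ Supp E` for effective divisors.
* `CaDiv.exists_symmetric` : on a separated integral scheme with an involution `ι`, an effective
  Cartier divisor `D₀` whose support is the complement of a nonempty affine open `U₀` gives the
  effective divisor `D = D₀ + ι^* D₀` with `ι^* D = D` and support the complement of the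
  nonempty affine open `U₀ ⊓ ι⁻¹ U₀`.
* `negMor G = (G.inv f idPoint).1` is an involution of `A` over `Spec R` (for the symmetric line
  bundle `[-1]^* L = L` of the abelian-variety programme).
-/

set_option autoImplicit false
set_option linter.style.haveILetI false

universe u

open AlgebraicGeometry CategoryTheory TopologicalSpace Opposite

namespace Fermat.Agent.AV.PicDiv86

variable {X Y : Scheme.{u}} [IsIntegral X] [IsIntegral Y]

namespace CaDiv

theorem pullback_congr {φ ψ : Y ⟶ X} [IsDominant φ] [IsDominant ψ] (h : φ = ψ) (D : CaDiv X) :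
    pullback φ D = pullback ψ D := by
  subst h; rfl

theorem support_mul_of_isEffective {D E : CaDiv X} (hD : D.IsEffective) (hE : E.IsEffective) :
    (D * E).support = D.support ∪ E.support := by
  refine (support_mul_subset D E).antisymm ?_
  intro x hx
  by_contra h
  obtain ⟨f, hf⟩ := D.exists_isLocalEq x
  obtain ⟨e, he⟩ := E.exists_isLocalEq x
  rw [notMem_support_iff_of_isLocalEq (hf.mul he), mem_stalkUnits_iff] at h
  have hfm := hD x f hf
  have hem := hE x e he
  -- `(f e)⁻¹ ∈ O_x`, hence `f⁻¹ = e (f e)⁻¹` and `e⁻¹ = f (f e)⁻¹` are in `O_x`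
  have hf' : f ∈ stalkUnits X x := by
    rw [mem_stalkUnits_iff]
    refine ⟨hfm, ?_⟩
    have : ((f⁻¹ : X.functionFieldˣ) : X.functionField) =
        (e : X.functionField) * (((f * e)⁻¹ : X.functionFieldˣ) : X.functionField) := by
      rw [← Units.val_mul]
      congr 1
      rw [mul_inv, mul_comm f⁻¹, mul_inv_cancel_left]
    rw [this]
    exact (stalkSubring X x).mul_mem hem h.2
  have he' : e ∈ stalkUnits X x := by
    rw [mem_stalkUnits_iff]
    refine ⟨hem, ?_⟩
    have : ((e⁻¹ : X.functionFieldˣ) : X.functionField) =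
        (f : X.functionField) * (((f * e)⁻¹ : X.functionFieldˣ) : X.functionField) := by
      rw [← Units.val_mul]
      congr 1
      rw [mul_inv, mul_inv_cancel_left]
    rw [this]
    exact (stalkSubring X x).mul_mem hfm h.2
  rcases hx with hx | hx
  · exact hx (notMem_support_iff.1 ((notMem_support_iff_of_isLocalEq hf).2 hf'))
  · exact hx (notMem_support_iff.1 ((notMem_support_iff_of_isLocalEq he).2 he'))

theorem support_pow_of_isEffective {D : CaDiv X} (hD : D.IsEffective) {n : ℕ} (hn : 0 < n) :
    (D ^ n).support = D.support := by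
  induction n with
  | zero => exact absurd hn (lt_irrefl 0)
  | succ n ih =>
    rcases Nat.eq_zero_or_pos n with h0 | hpos
    · subst h0; simp
    · rw [pow_succ, support_mul_of_isEffective (hD.pow n) hD, ih hpos, Set.union_self]

/-- A symmetric effective divisor with affine complement from an arbitrary one. -/
theorem exists_symmetric [X.IsSeparated] (ι : X ⟶ X) [IsDominant ι] (hι : ι ≫ ι = 𝟙 X)
    {D₀ : CaDiv X} (hD₀ : D₀.IsEffective) {U₀ : X.Opens} (hU₀ : IsAffineOpen U₀) [Nonempty U₀]
    (hsupp : D₀.support = (U₀ : Set X)ᶜ) :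
    ∃ (D : CaDiv X) (U : X.Opens), D.IsEffective ∧ IsAffineOpen U ∧ Nonempty U ∧
      D.support = (U : Set X)ᶜ ∧ pullback ι D = D := by
  haveI : IsIso ι := ⟨ι, hι, hι⟩
  refine ⟨D₀ * pullback ι D₀, U₀ ⊓ ι ⁻¹ᵁ U₀, hD₀.mul hD₀.pullback,
    hU₀.inf (hU₀.preimage_of_isIso ι), ?_, ?_, ?_⟩
  · have h1 : genericPoint X ∈ U₀ :=
      ((genericPoint_spec X).mem_open_set_iff U₀.isOpen).2 (by simpa using ‹Nonempty U₀›)
    exact ⟨⟨genericPoint X, h1, genericPoint_mem_preimage ι U₀⟩⟩
  · rw [support_mul_of_isEffective hD₀ hD₀.pullback, support_pullback ι hD₀, hsupp]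
    ext x
    simp only [Set.mem_union, Set.mem_compl_iff, SetLike.mem_coe, Set.mem_preimage,
      Opens.coe_inf, Set.mem_inter_iff]
    change ¬ x ∈ U₀ ∨ ¬ ι x ∈ U₀ ↔ ¬ (x ∈ U₀ ∧ ι x ∈ U₀)
    tauto
  · rw [map_mul, ← pullback_comp, pullback_congr hι, pullback_id, mul_comm]

end CaDiv

end Fermat.Agent.AV.PicDiv86

namespace Fermat.Agent.AV.PicDiv86

open GoodReductionJacobian NeronModelInfra

variable {R : Type u} [CommRing R] {A : Scheme.{u}} {f : A ⟶ Spec (CommRingCat.of R)}

/-- Inversion commutes with base change of points. -/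
theorem inv_natural (G : RelativeGroupLaw R f) {T T' : Scheme.{u}}
    (t : T ⟶ Spec (CommRingCat.of R)) (t' : T' ⟶ Spec (CommRingCat.of R))
    (ψ : T' ⟶ T) (hψ : ψ ≫ t = t') (x : SchemeHomOver t f) :
    schemeHomOverComp ψ hψ (G.inv t x) = G.inv t' (schemeHomOverComp ψ hψ x) := by
  letI := G.pointGroup t'
  have h : schemeHomOverComp ψ hψ (G.inv t x) * schemeHomOverComp ψ hψ x = 1 := by
    change G.mul t' _ _ = G.one t'
    rw [← G.mul_natural t t' ψ hψ, G.inv_mul_cancel, G.one_natural]
  exact eq_inv_of_mul_eq_one_left h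

/-- The inversion morphism `[-1] : A ⟶ A`. -/
noncomputable def negMor (G : RelativeGroupLaw R f) : A ⟶ A :=
  (G.inv f RelativeGroupLaw.idPoint).1

theorem negMor_over (G : RelativeGroupLaw R f) : negMor G ≫ f = f :=
  (G.inv f RelativeGroupLaw.idPoint).2

/-- `[-1]` is an involution. -/
theorem negMor_comp_negMor (G : RelativeGroupLaw R f) : negMor G ≫ negMor G = 𝟙 A := by
  have h1 := inv_natural G f f (negMor G) (negMor_over G) RelativeGroupLaw.idPoint
  have h2 : schemeHomOverComp (negMor G) (negMor_over G) (RelativeGroupLaw.idPoint (f := f)) =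
      G.inv f RelativeGroupLaw.idPoint := by
    apply Subtype.ext
    change negMor G ≫ 𝟙 A = negMor G
    exact Category.comp_id _
  rw [h2] at h1
  have h3 : G.inv f (G.inv f RelativeGroupLaw.idPoint) = RelativeGroupLaw.idPoint := by
    letI := G.pointGroup f
    exact inv_inv (RelativeGroupLaw.idPoint (f := f))
  rw [h3] at h1
  exact congrArg Subtype.val h1

instance isIso_negMor (G : RelativeGroupLaw R f) : IsIso (negMor G) :=
  ⟨negMor G, negMor_comp_negMor G, negMor_comp_negMor G⟩

end Fermat.Agent.AV.PicDiv86
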