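import Mathlib

/-!
# PIC-div (AV programme), part 1: Cartier divisors on an integral scheme, function-field phrasing

For an integral scheme `X` with function field `F = X.functionField`:

* `stalkSubring X x : Subring F` : the local ring `O_{X,x}` inside `F`;
* `regularOn X U : Subring F` : rational functions regular at every point of `U`
  (`mem_regularOn_iff` : these are exactly the images of sections over `U`);
* `stalkUnits X x : Subgroup Fˣ` : the units of `O_{X,x}` inside `Fˣ`;
* `CaDiv X` : Cartier divisors = locally principal families of classes in `Fˣ ⧸ O_{X,x}ˣ`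
  (a commutative group, written multiplicatively, so that `cl : CaDiv X →* Pic X`);
* `CaDiv.div : Fˣ →* CaDiv X` principal divisors, `CaDiv.IsEffective`, `CaDiv.support`.
-/

set_option autoImplicit false

universe u

open AlgebraicGeometry CategoryTheory TopologicalSpace Opposite

namespace Fermat.Agent.AV.PicDiv86

variable (X : Scheme.{u}) [IsIntegral X]

/-- The local ring `O_{X,x}` as a subring of the function field. -/
noncomputable def stalkSubring (x : X) : Subring X.functionField :=
  (algebraMap (X.presheaf.stalk x) X.functionField).range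

variable {X}

theorem germToFunctionField_mem_stalkSubring {U : X.Opens} [Nonempty U] {x : X} (hx : x ∈ U)
    (s : Γ(X, U)) : X.germToFunctionField U s ∈ stalkSubring X x :=
  ⟨X.presheaf.germ U x hx s, Scheme.algebraMap_germ_eq_germToFunctionField X hx s⟩

theorem mem_stalkSubring_iff {x : X} {f : X.functionField} :
    f ∈ stalkSubring X x ↔
      ∃ (U : X.Opens) (_ : Nonempty U) (_ : x ∈ U) (s : Γ(X, U)),
        X.germToFunctionField U s = f := by
  constructor
  · rintro ⟨t, rfl⟩
    obtain ⟨U, hxU, s, rfl⟩ := X.presheaf.exists_germ_eq t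
    have : Nonempty U := ⟨⟨x, hxU⟩⟩
    exact ⟨U, ‹_›, hxU, s, (Scheme.algebraMap_germ_eq_germToFunctionField X hxU s).symm⟩
  · rintro ⟨U, _, hxU, s, rfl⟩
    exact germToFunctionField_mem_stalkSubring hxU s

/-- Regularity is an open condition. -/
theorem isOpen_setOf_mem_stalkSubring (f : X.functionField) :
    IsOpen {x : X | f ∈ stalkSubring X x} := by
  rw [isOpen_iff_forall_mem_open]
  intro x hx
  obtain ⟨U, _, hxU, s, rfl⟩ := mem_stalkSubring_iff.1 hx
  exact ⟨U, fun y hy => germToFunctionField_mem_stalkSubring hy s, U.isOpen, hxU⟩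


/-- Specialisation: if `x` specialises to `y` then `O_{X,y} ⊆ O_{X,x}` inside `F`. -/
theorem stalkSubring_le_of_specializes {x y : X} (h : x ⤳ y) :
    stalkSubring X y ≤ stalkSubring X x := by
  intro f hf
  obtain ⟨U, _, hyU, s, rfl⟩ := mem_stalkSubring_iff.1 hf
  exact germToFunctionField_mem_stalkSubring (h.mem_open U.isOpen hyU) s

variable (X) in
/-- Rational functions which are regular at every point of `U`. -/
noncomputable def regularOn (U : Set X) : Subring X.functionField :=
  ⨅ x ∈ U, stalkSubring X x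

theorem mem_regularOn {U : Set X} {f : X.functionField} :
    f ∈ regularOn X U ↔ ∀ x ∈ U, f ∈ stalkSubring X x := by
  simp [regularOn, Subring.mem_iInf]

theorem regularOn_anti {U V : Set X} (h : U ⊆ V) : regularOn X V ≤ regularOn X U :=
  fun _ hf => mem_regularOn.2 fun x hx => mem_regularOn.1 hf x (h hx)

theorem germToFunctionField_mem_regularOn {U : X.Opens} [Nonempty U] (s : Γ(X, U)) :
    X.germToFunctionField U s ∈ regularOn X (U : Set X) :=
  mem_regularOn.2 fun _ hx => germToFunctionField_mem_stalkSubring hx s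

theorem germToFunctionField_res {U V : X.Opens} [Nonempty U] [Nonempty V] (h : U ≤ V)
    (s : Γ(X, V)) :
    X.germToFunctionField U (X.presheaf.map (homOfLE h).op s) = X.germToFunctionField V s :=
  X.presheaf.germ_res_apply (homOfLE h) (genericPoint X) _ s

/-- A rational function regular at every point of a nonempty open `U` is (uniquely) a section
over `U` (sheaf gluing; all the local sections agree in `F`). -/
theorem exists_section_of_mem_regularOn {U : X.Opens} [Nonempty U] {f : X.functionField}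
    (hf : f ∈ regularOn X (U : Set X)) : ∃ s : Γ(X, U), X.germToFunctionField U s = f := by
  classical
  have key : ∀ x : U, ∃ (W : X.Opens) (_ : Nonempty W) (_ : (x : X) ∈ W) (_ : W ≤ U)
      (s : Γ(X, W)), X.germToFunctionField W s = f := by
    intro x
    obtain ⟨W, _, hxW, s, hs⟩ := mem_stalkSubring_iff.1 (mem_regularOn.1 hf x x.2)
    have : Nonempty (W ⊓ U : X.Opens) := ⟨⟨x, hxW, x.2⟩⟩
    refine ⟨W ⊓ U, ‹_›, ⟨hxW, x.2⟩, inf_le_right, X.presheaf.map (homOfLE inf_le_left).op s, ?_⟩
    rw [germToFunctionField_res, hs]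
  choose W hWne hxW hWU s hs using key
  have hcompat : TopCat.Presheaf.IsCompatible X.presheaf W s := by
    intro i j
    have hne : Nonempty (W i ⊓ W j : X.Opens) := by
      have h1 : genericPoint X ∈ W i :=
        ((genericPoint_spec X).mem_open_set_iff (W i).isOpen).2
          ⟨i, by simpa using hxW i⟩
      have h2 : genericPoint X ∈ W j :=
        ((genericPoint_spec X).mem_open_set_iff (W j).isOpen).2
          ⟨j, by simpa using hxW j⟩
      exact ⟨⟨genericPoint X, h1, h2⟩⟩
    apply Scheme.germToFunctionField_injective X (W i ⊓ W j)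
    have e1 := germToFunctionField_res (X := X) (inf_le_left : W i ⊓ W j ≤ W i) (s i)
    have e2 := germToFunctionField_res (X := X) (inf_le_right : W i ⊓ W j ≤ W j) (s j)
    exact (e1.trans (hs i)).trans ((e2.trans (hs j)).symm)
  obtain ⟨t, ht, -⟩ := X.sheaf.existsUnique_gluing' W U (fun i => homOfLE (hWU i))
    (fun x hx => Opens.mem_iSup.2 ⟨⟨x, hx⟩, hxW ⟨x, hx⟩⟩) s hcompat
  refine ⟨t, ?_⟩
  obtain ⟨⟨x0, hx0⟩⟩ := ‹Nonempty U›
  let y0 : U := ⟨x0, hx0⟩
  have : Nonempty (W y0) := hWne y0
  have h1 := germToFunctionField_res (X := X) (hWU y0) t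
  rw [← h1]
  have h2 : X.presheaf.map (homOfLE (hWU y0)).op t = s y0 := ht y0
  rw [h2]
  exact hs y0

theorem mem_regularOn_iff {U : X.Opens} [Nonempty U] {f : X.functionField} :
    f ∈ regularOn X (U : Set X) ↔ ∃ s : Γ(X, U), X.germToFunctionField U s = f :=
  ⟨exists_section_of_mem_regularOn, by rintro ⟨s, rfl⟩; exact germToFunctionField_mem_regularOn s⟩


/-! ### Local units -/

variable (X) in
/-- The units of `O_{X,x}` as a subgroup of `Fˣ`. -/
noncomputable def stalkUnits (x : X) : Subgroup X.functionFieldˣ :=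
  (stalkSubring X x).toSubmonoid.units

theorem mem_stalkUnits_iff {x : X} {f : X.functionFieldˣ} :
    f ∈ stalkUnits X x ↔ (f : X.functionField) ∈ stalkSubring X x ∧
      ((f⁻¹ : X.functionFieldˣ) : X.functionField) ∈ stalkSubring X x :=
  Submonoid.mem_units_iff _ _

theorem stalkUnits_le_of_specializes {x y : X} (h : x ⤳ y) :
    stalkUnits X y ≤ stalkUnits X x := fun _ hf =>
  mem_stalkUnits_iff.2 ⟨stalkSubring_le_of_specializes h (mem_stalkUnits_iff.1 hf).1,
    stalkSubring_le_of_specializes h (mem_stalkUnits_iff.1 hf).2⟩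

/-- Being a local unit is an open condition. -/
theorem isOpen_setOf_mem_stalkUnits (f : X.functionFieldˣ) :
    IsOpen {x : X | f ∈ stalkUnits X x} := by
  have : {x : X | f ∈ stalkUnits X x} =
      {x | (f : X.functionField) ∈ stalkSubring X x} ∩
        {x | ((f⁻¹ : X.functionFieldˣ) : X.functionField) ∈ stalkSubring X x} := by
    ext x; exact mem_stalkUnits_iff
  rw [this]
  exact (isOpen_setOf_mem_stalkSubring _).inter (isOpen_setOf_mem_stalkSubring _)

/-- An element of `O_{X,x}` which is not a unit of `O_{X,x}` lies in the maximal ideal; phrased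
inside `F`: `f ∈ O_x`, `f ≠ 0`, then `f⁻¹ ∈ O_x` iff the preimage of `f` is a unit. -/
theorem mem_stalkUnits_iff_isUnit {x : X} (t : X.presheaf.stalk x) (f : X.functionFieldˣ)
    (hf : algebraMap (X.presheaf.stalk x) X.functionField t = f) :
    f ∈ stalkUnits X x ↔ IsUnit t := by
  constructor
  · intro h
    obtain ⟨t', ht'⟩ := (mem_stalkUnits_iff.1 h).2
    refine isUnit_iff_exists_inv.2 ⟨t', ?_⟩
    apply IsFractionRing.injective (X.presheaf.stalk x) X.functionField
    rw [map_mul, map_one, hf]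
    erw [ht']
    simp
  · intro h
    obtain ⟨t', ht'⟩ := isUnit_iff_exists_inv.1 h
    refine mem_stalkUnits_iff.2 ⟨⟨t, hf⟩, ⟨t', ?_⟩⟩
    have := congrArg (algebraMap (X.presheaf.stalk x) X.functionField) ht'
    rw [map_mul, map_one, hf] at this
    change algebraMap _ _ t' = _
    rw [Units.val_inv_eq_inv_val]
    exact eq_inv_of_mul_eq_one_right this

/-! ### Cartier divisors -/

variable (X) in
/-- Families of local classes `d x ∈ Fˣ ⧸ O_{X,x}ˣ`. -/
abbrev CaDivFam : Type u := ∀ x : X, X.functionFieldˣ ⧸ stalkUnits X x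

variable (X) in
/-- The subgroup of locally principal families. -/
noncomputable def caDivSubgroup : Subgroup (CaDivFam X) where
  carrier := {d | ∀ x : X, ∃ U : X.Opens, x ∈ U ∧ ∃ f : X.functionFieldˣ,
    ∀ y ∈ U, d y = QuotientGroup.mk f}
  one_mem' := fun x => ⟨⊤, trivial, 1, fun _ _ => rfl⟩
  mul_mem' := by
    intro d e hd he x
    obtain ⟨U, hxU, f, hf⟩ := hd x
    obtain ⟨V, hxV, g, hg⟩ := he x
    refine ⟨U ⊓ V, ⟨hxU, hxV⟩, f * g, fun y hy => ?_⟩
    change d y * e y = _
    rw [hf y hy.1, hg y hy.2]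
    rfl
  inv_mem' := by
    intro d hd x
    obtain ⟨U, hxU, f, hf⟩ := hd x
    refine ⟨U, hxU, f⁻¹, fun y hy => ?_⟩
    change (d y)⁻¹ = _
    rw [hf y hy]
    rfl

variable (X) in
/-- Cartier divisors on the integral scheme `X` (multiplicative notation: `D * E` is the sum of
divisors, `D ^ n` is `nD`). -/
def CaDiv : Type u := ↥(caDivSubgroup X)

noncomputable instance : CommGroup (CaDiv X) := inferInstanceAs (CommGroup ↥(caDivSubgroup X))

namespace CaDiv

/-- The local class of `D` at `x`. -/
def germ (D : CaDiv X) (x : X) : X.functionFieldˣ ⧸ stalkUnits X x := D.1 x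

@[ext] theorem ext {D E : CaDiv X} (h : ∀ x, D.germ x = E.germ x) : D = E :=
  Subtype.ext (funext h)

@[simp] theorem germ_one (x : X) : (1 : CaDiv X).germ x = 1 := rfl
@[simp] theorem germ_mul (D E : CaDiv X) (x : X) : (D * E).germ x = D.germ x * E.germ x := rfl
@[simp] theorem germ_inv (D : CaDiv X) (x : X) : (D⁻¹).germ x = (D.germ x)⁻¹ := rfl
@[simp] theorem germ_div (D E : CaDiv X) (x : X) : (D / E).germ x = D.germ x / E.germ x := rfl
@[simp] theorem germ_pow (D : CaDiv X) (n : ℕ) (x : X) : (D ^ n).germ x = D.germ x ^ n := rfl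
@[simp] theorem germ_zpow (D : CaDiv X) (n : ℤ) (x : X) : (D ^ n).germ x = D.germ x ^ n := rfl

/-- `f` is a local equation of `D` at `x`. -/
def IsLocalEq (D : CaDiv X) (x : X) (f : X.functionFieldˣ) : Prop :=
  D.germ x = QuotientGroup.mk f

theorem exists_isLocalEq (D : CaDiv X) (x : X) : ∃ f, D.IsLocalEq x f :=
  (QuotientGroup.mk_surjective (D.germ x)).imp fun _ h => h.symm

/-- Local principality. -/
theorem exists_open_isLocalEq (D : CaDiv X) (x : X) :
    ∃ U : X.Opens, x ∈ U ∧ ∃ f : X.functionFieldˣ, ∀ y ∈ U, D.IsLocalEq y f :=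
  D.2 x

theorem IsLocalEq.mul {D E : CaDiv X} {x : X} {f g : X.functionFieldˣ}
    (hf : D.IsLocalEq x f) (hg : E.IsLocalEq x g) : (D * E).IsLocalEq x (f * g) := by
  unfold IsLocalEq at *
  rw [germ_mul, hf, hg]; rfl

theorem IsLocalEq.inv {D : CaDiv X} {x : X} {f : X.functionFieldˣ}
    (hf : D.IsLocalEq x f) : (D⁻¹).IsLocalEq x f⁻¹ := by
  unfold IsLocalEq at *
  rw [germ_inv, hf]; rfl

theorem IsLocalEq.pow {D : CaDiv X} {x : X} {f : X.functionFieldˣ}
    (hf : D.IsLocalEq x f) (n : ℕ) : (D ^ n).IsLocalEq x (f ^ n) := by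
  unfold IsLocalEq at *
  rw [germ_pow, hf]; rfl

theorem IsLocalEq.zpow {D : CaDiv X} {x : X} {f : X.functionFieldˣ}
    (hf : D.IsLocalEq x f) (n : ℤ) : (D ^ n).IsLocalEq x (f ^ n) := by
  unfold IsLocalEq at *
  rw [germ_zpow, hf]; rfl

/-- Two local equations of the same divisor at `x` differ by a unit of `O_{X,x}`. -/
theorem IsLocalEq.div_mem {D : CaDiv X} {x : X} {f g : X.functionFieldˣ}
    (hf : D.IsLocalEq x f) (hg : D.IsLocalEq x g) : f⁻¹ * g ∈ stalkUnits X x :=
  QuotientGroup.eq.1 (hf.symm.trans hg)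

theorem isLocalEq_iff_of_isLocalEq {D : CaDiv X} {x : X} {f g : X.functionFieldˣ}
    (hf : D.IsLocalEq x f) : D.IsLocalEq x g ↔ f⁻¹ * g ∈ stalkUnits X x := by
  unfold IsLocalEq at *
  rw [hf]
  exact QuotientGroup.eq

/-- The principal divisor of a nonzero rational function. -/
noncomputable def div : X.functionFieldˣ →* CaDiv X where
  toFun f := ⟨fun _ => QuotientGroup.mk f, fun _ => ⟨⊤, trivial, f, fun _ _ => rfl⟩⟩
  map_one' := rfl
  map_mul' _ _ := rfl

theorem isLocalEq_div (f : X.functionFieldˣ) (x : X) : (div f : CaDiv X).IsLocalEq x f := rfl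

/-- Build a Cartier divisor from local equations on an open cover. -/
noncomputable def ofLocalEqs {ι : Type*} (U : ι → X.Opens) (hU : ∀ x : X, ∃ i, x ∈ U i)
    (f : ι → X.functionFieldˣ)
    (hf : ∀ i j, ∀ x ∈ U i ⊓ U j, (f i)⁻¹ * f j ∈ stalkUnits X x) : CaDiv X :=
  ⟨fun x => QuotientGroup.mk (f (hU x).choose), fun x => by
    refine ⟨U (hU x).choose, (hU x).choose_spec, f (hU x).choose, fun y hy => ?_⟩
    exact QuotientGroup.eq.2 (hf _ _ y ⟨(hU y).choose_spec, hy⟩)⟩

theorem isLocalEq_ofLocalEqs {ι : Type*} (U : ι → X.Opens) (hU : ∀ x : X, ∃ i, x ∈ U i)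
    (f : ι → X.functionFieldˣ)
    (hf : ∀ i j, ∀ x ∈ U i ⊓ U j, (f i)⁻¹ * f j ∈ stalkUnits X x) (i : ι) (x : X)
    (hx : x ∈ U i) : (ofLocalEqs U hU f hf).IsLocalEq x (f i) :=
  QuotientGroup.eq.2 (hf _ _ x ⟨(hU x).choose_spec, hx⟩)

/-- `D` is effective: its local equations are regular. -/
def IsEffective (D : CaDiv X) : Prop :=
  ∀ x (f : X.functionFieldˣ), D.IsLocalEq x f → (f : X.functionField) ∈ stalkSubring X x

theorem isEffective_of_exists {D : CaDiv X}
    (h : ∀ x, ∃ f : X.functionFieldˣ, D.IsLocalEq x f ∧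
      (f : X.functionField) ∈ stalkSubring X x) : D.IsEffective := by
  intro x g hg
  obtain ⟨f, hf, hfm⟩ := h x
  have hu := (mem_stalkUnits_iff.1 (hf.div_mem hg)).1
  have : (g : X.functionField) = f * ((f⁻¹ * g : X.functionFieldˣ) : X.functionField) := by
    simp
  rw [this]
  exact (stalkSubring X x).mul_mem hfm hu

theorem isEffective_one : (1 : CaDiv X).IsEffective :=
  isEffective_of_exists fun x => ⟨1, rfl, by simp⟩

theorem IsEffective.mul {D E : CaDiv X} (hD : D.IsEffective) (hE : E.IsEffective) :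
    (D * E).IsEffective :=
  isEffective_of_exists fun x => by
    obtain ⟨f, hf⟩ := D.exists_isLocalEq x
    obtain ⟨g, hg⟩ := E.exists_isLocalEq x
    exact ⟨f * g, hf.mul hg, by
      simpa using (stalkSubring X x).mul_mem (hD x f hf) (hE x g hg)⟩

theorem IsEffective.pow {D : CaDiv X} (hD : D.IsEffective) (n : ℕ) : (D ^ n).IsEffective := by
  induction n with
  | zero => simpa using isEffective_one
  | succ n ih => rw [pow_succ]; exact ih.mul hD

/-- The support of a Cartier divisor. -/
def support (D : CaDiv X) : Set X := {x | D.germ x ≠ 1}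

theorem notMem_support_iff {D : CaDiv X} {x : X} : x ∉ D.support ↔ D.germ x = 1 := by
  simp [support]

theorem notMem_support_iff_of_isLocalEq {D : CaDiv X} {x : X} {f : X.functionFieldˣ}
    (hf : D.IsLocalEq x f) : x ∉ D.support ↔ f ∈ stalkUnits X x := by
  rw [notMem_support_iff, hf, QuotientGroup.eq_one_iff]

theorem isClosed_support (D : CaDiv X) : IsClosed D.support := by
  rw [← isOpen_compl_iff, isOpen_iff_forall_mem_open]
  intro x hx
  obtain ⟨U, hxU, f, hf⟩ := D.exists_open_isLocalEq x
  have hx' : f ∈ stalkUnits X x := (notMem_support_iff_of_isLocalEq (hf x hxU)).1 hx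
  refine ⟨(U : Set X) ∩ {y | f ∈ stalkUnits X y}, ?_,
    U.isOpen.inter (isOpen_setOf_mem_stalkUnits f), ⟨hxU, hx'⟩⟩
  rintro y ⟨hyU, hy⟩
  exact (notMem_support_iff_of_isLocalEq (hf y hyU)).2 hy

theorem support_mul_subset (D E : CaDiv X) : (D * E).support ⊆ D.support ∪ E.support := by
  intro x hx
  by_contra h
  rw [Set.mem_union, not_or] at h
  apply hx
  rw [germ_mul, notMem_support_iff.1 h.1, notMem_support_iff.1 h.2]
  exact one_mul (1 : X.functionFieldˣ ⧸ stalkUnits X x)

theorem support_pow_subset (D : CaDiv X) (n : ℕ) : (D ^ n).support ⊆ D.support := by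
  intro x hx
  by_contra h
  apply hx
  rw [germ_pow, notMem_support_iff.1 h, one_pow]

theorem support_inv (D : CaDiv X) : (D⁻¹).support = D.support := by
  ext x
  simp [support]

end CaDiv

end Fermat.Agent.AV.PicDiv86
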