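import Fermat.Agent.AV.PicDiv86.H0

/-!
# PIC-div, part 4b: clearing denominators on an affine open

`X` integral, `D` a Cartier divisor, `U` a nonempty affine open. There is a nonzero
`h ∈ Γ(X, U)` such that `g · h^m` is regular on `U` for every `m` and every `g ∈ H0 (mD)`.
(Requested by UPB, helper43.)
-/

set_option autoImplicit false

universe u

open AlgebraicGeometry CategoryTheory TopologicalSpace Opposite

namespace Fermat.Agent.AV.PicDiv86

variable {X : Scheme.{u}} [IsIntegral X]

namespace CaDiv

theorem exists_clear_denominators (D : CaDiv X) {U : X.Opens} (hU : IsAffineOpen U)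
    [Nonempty U] :
    ∃ h : Γ(X, U), h ≠ 0 ∧ ∀ (m : ℕ) (g : X.functionField), g ∈ (D ^ m).H0 →
      g * (X.germToFunctionField U h) ^ m ∈ regularOn X (U : Set X) := by
  classical
  have := functionField_isFractionRing_of_isAffineOpen X U hU
  -- local equations
  choose V hxV f hf using fun x : X => D.exists_open_isLocalEq x
  -- write `f x = b x / c x`
  have hfrac : ∀ x : X, ∃ b c : Γ(X, U), c ≠ 0 ∧
      (f x : X.functionField) * X.germToFunctionField U c = X.germToFunctionField U b := by
    intro x
    obtain ⟨b, c, hc, hbc⟩ := IsFractionRing.div_surjective (A := Γ(X, U)) (f x : X.functionField)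
    refine ⟨b, c, nonZeroDivisors.ne_zero hc, ?_⟩
    have hc' : algebraMap Γ(X, U) X.functionField c ≠ 0 := by
      rw [Ne, map_eq_zero_iff _ (IsFractionRing.injective Γ(X, U) X.functionField)]
      exact nonZeroDivisors.ne_zero hc
    rw [← hbc]
    exact div_mul_cancel₀ _ hc'
  choose b c hc hbc using hfrac
  have hb : ∀ x, b x ≠ 0 := by
    intro x hbx
    have h1 := hbc x
    rw [hbx, map_zero] at h1
    have hc' : X.germToFunctionField U (c x) ≠ 0 := by
      intro h0
      exact hc x (Scheme.germToFunctionField_injective X U (h0.trans (map_zero _).symm))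
    exact (mul_ne_zero (f x).ne_zero hc') h1
  -- finite subcover of `U`
  obtain ⟨t, ht⟩ := hU.isCompact.elim_finite_subcover (fun x : X => ((V x : X.Opens) : Set X))
    (fun x => (V x).isOpen) (fun x _ => Set.mem_iUnion.2 ⟨x, hxV x⟩)
  refine ⟨∏ i ∈ t, b i, Finset.prod_ne_zero_iff.2 fun i _ => hb i, fun m g hg => ?_⟩
  rw [mem_regularOn]
  intro y hy
  obtain ⟨i, hi⟩ := Set.mem_iUnion.1 (ht hy)
  obtain ⟨hit, hyi⟩ := Set.mem_iUnion.1 hi
  have hyU : y ∈ U := hy
  have hmem : ∀ s : Γ(X, U), X.germToFunctionField U s ∈ stalkSubring X y := fun s =>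
    germToFunctionField_mem_stalkSubring hyU s
  have h1 : g * (f i : X.functionField) ^ m ∈ stalkSubring X y := by
    have := mem_H0.1 hg y
    rw [mem_stalkLattice_iff_of_isLocalEq ((hf i y hyi).pow m)] at this
    simpa using this
  have h2 : g * (X.germToFunctionField U (∏ j ∈ t, b j)) ^ m =
      (g * (f i : X.functionField) ^ m) * (X.germToFunctionField U (c i)) ^ m *
        (X.germToFunctionField U (∏ j ∈ t.erase i, b j)) ^ m := by
    rw [← Finset.mul_prod_erase t b hit, map_mul, ← hbc i]
    ring
  rw [h2]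
  exact (stalkSubring X y).mul_mem ((stalkSubring X y).mul_mem h1
    ((stalkSubring X y).pow_mem (hmem _) m)) ((stalkSubring X y).pow_mem (hmem _) m)

end CaDiv

end Fermat.Agent.AV.PicDiv86
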