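import Fermat.Agent.AV.PicDiv86.Basic

/-!
# PIC-div, part 2: global sections `H0 D ⊆ F` of a Cartier divisor

`H0 D = {g ∈ F | g · f_x ∈ O_{X,x} for every x}` (where `f_x` is a local equation of `D` at `x`),
i.e. the global sections of `O(D)` seen inside the function field by means of the canonical
rational section. Multiplication of sections is multiplication in `F`, the canonical section of an
effective divisor is `1`, and linearly equivalent divisors have isomorphic `H0`.
-/

set_option autoImplicit false

universe u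

open AlgebraicGeometry CategoryTheory TopologicalSpace Opposite

namespace Fermat.Agent.AV.PicDiv86

variable {X : Scheme.{u}} [IsIntegral X]

namespace CaDiv

/-- The stalk of `O(D)` at `x` inside `F`: the lattice `f_x⁻¹ O_{X,x}`. -/
noncomputable def stalkLattice (D : CaDiv X) (x : X) : AddSubgroup X.functionField where
  carrier := {g | ∀ f : X.functionFieldˣ, D.IsLocalEq x f →
    g * (f : X.functionField) ∈ stalkSubring X x}
  zero_mem' := fun f _ => by simp
  add_mem' := fun {a b} ha hb f hf => by
    rw [add_mul]; exact (stalkSubring X x).add_mem (ha f hf) (hb f hf)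
  neg_mem' := fun {a} ha f hf => by
    rw [neg_mul]; exact (stalkSubring X x).neg_mem (ha f hf)

theorem mem_stalkLattice {D : CaDiv X} {x : X} {g : X.functionField} :
    g ∈ D.stalkLattice x ↔ ∀ f : X.functionFieldˣ, D.IsLocalEq x f →
      g * (f : X.functionField) ∈ stalkSubring X x := Iff.rfl

theorem mem_stalkLattice_iff_of_isLocalEq {D : CaDiv X} {x : X} {f : X.functionFieldˣ}
    (hf : D.IsLocalEq x f) {g : X.functionField} :
    g ∈ D.stalkLattice x ↔ g * (f : X.functionField) ∈ stalkSubring X x := by
  refine ⟨fun h => h f hf, fun h f' hf' => ?_⟩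
  have hu := (mem_stalkUnits_iff.1 (hf.div_mem hf')).1
  have : g * (f' : X.functionField) =
      g * f * ((f⁻¹ * f' : X.functionFieldˣ) : X.functionField) := by
    simp [mul_assoc]
  rw [this]
  exact (stalkSubring X x).mul_mem h hu

theorem stalkLattice_one (x : X) {g : X.functionField} :
    g ∈ (1 : CaDiv X).stalkLattice x ↔ g ∈ stalkSubring X x := by
  have h1 : (1 : CaDiv X).IsLocalEq x 1 := rfl
  rw [mem_stalkLattice_iff_of_isLocalEq h1]; simp

/-- Away from the support, `O(D)_x = O_{X,x}`. -/
theorem mem_stalkLattice_iff_of_notMem_support {D : CaDiv X} {x : X} (hx : x ∉ D.support)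
    {g : X.functionField} : g ∈ D.stalkLattice x ↔ g ∈ stalkSubring X x := by
  have h1 : D.IsLocalEq x 1 := notMem_support_iff.1 hx
  rw [mem_stalkLattice_iff_of_isLocalEq h1]; simp

theorem mul_mem_stalkLattice {D E : CaDiv X} {x : X} {g h : X.functionField}
    (hg : g ∈ D.stalkLattice x) (hh : h ∈ E.stalkLattice x) :
    g * h ∈ (D * E).stalkLattice x := by
  obtain ⟨f, hf⟩ := D.exists_isLocalEq x
  obtain ⟨e, he⟩ := E.exists_isLocalEq x
  rw [mem_stalkLattice_iff_of_isLocalEq (hf.mul he)]
  have : g * h * ((f * e : X.functionFieldˣ) : X.functionField) = (g * f) * (h * e) := by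
    push_cast; ring
  rw [this]
  exact (stalkSubring X x).mul_mem (hg f hf) (hh e he)

theorem smul_mem_stalkLattice {D : CaDiv X} {x : X} {a g : X.functionField}
    (ha : a ∈ stalkSubring X x) (hg : g ∈ D.stalkLattice x) : a * g ∈ D.stalkLattice x := by
  have := mul_mem_stalkLattice ((stalkLattice_one x).2 ha) hg
  rwa [one_mul] at this

theorem mem_stalkLattice_div_mul {D : CaDiv X} {x : X} {h : X.functionFieldˣ}
    {g : X.functionField} :
    g ∈ (div h * D).stalkLattice x ↔ g * (h : X.functionField) ∈ D.stalkLattice x := by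
  obtain ⟨f, hf⟩ := D.exists_isLocalEq x
  rw [mem_stalkLattice_iff_of_isLocalEq ((isLocalEq_div h x).mul hf),
    mem_stalkLattice_iff_of_isLocalEq hf]
  push_cast
  rw [mul_assoc]

/-- Global sections of `O(D)` inside the function field. -/
noncomputable def H0 (D : CaDiv X) : AddSubgroup X.functionField := ⨅ x, D.stalkLattice x

theorem mem_H0 {D : CaDiv X} {g : X.functionField} :
    g ∈ D.H0 ↔ ∀ x, g ∈ D.stalkLattice x := by
  simp [H0, AddSubgroup.mem_iInf]

theorem mem_H0_iff {D : CaDiv X} {g : X.functionField} :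
    g ∈ D.H0 ↔ ∀ x (f : X.functionFieldˣ), D.IsLocalEq x f →
      g * (f : X.functionField) ∈ stalkSubring X x := mem_H0

theorem mem_H0_one {g : X.functionField} :
    g ∈ (1 : CaDiv X).H0 ↔ g ∈ regularOn X Set.univ := by
  rw [mem_H0, mem_regularOn]
  exact ⟨fun h x _ => (stalkLattice_one x).1 (h x), fun h x => (stalkLattice_one x).2 (h x trivial)⟩

/-- Global sections of `O(D)` are regular away from the support of `D`. -/
theorem mem_regularOn_compl_support {D : CaDiv X} {g : X.functionField} (hg : g ∈ D.H0) :
    g ∈ regularOn X D.supportᶜ :=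
  mem_regularOn.2 fun x hx => (mem_stalkLattice_iff_of_notMem_support hx).1 (mem_H0.1 hg x)

/-- The canonical section of an effective divisor. -/
theorem one_mem_H0 {D : CaDiv X} (hD : D.IsEffective) : (1 : X.functionField) ∈ D.H0 :=
  mem_H0.2 fun x f hf => by simpa using hD x f hf

/-- The canonical section `1` of an effective divisor generates `O(D)_x` exactly away from the
support: `X_s = X \ Supp D`. -/
theorem one_generates_iff {D : CaDiv X} (hD : D.IsEffective) (x : X) :
    (∀ g ∈ D.stalkLattice x, g ∈ stalkSubring X x) ↔ x ∉ D.support := by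
  obtain ⟨f, hf⟩ := D.exists_isLocalEq x
  constructor
  · intro h
    rw [notMem_support_iff_of_isLocalEq hf, mem_stalkUnits_iff]
    refine ⟨hD x f hf, h _ ?_⟩
    rw [mem_stalkLattice_iff_of_isLocalEq hf]
    simp
  · intro hx g hg
    exact (mem_stalkLattice_iff_of_notMem_support hx).1 hg

theorem mul_mem_H0 {D E : CaDiv X} {g h : X.functionField} (hg : g ∈ D.H0) (hh : h ∈ E.H0) :
    g * h ∈ (D * E).H0 :=
  mem_H0.2 fun x => mul_mem_stalkLattice (mem_H0.1 hg x) (mem_H0.1 hh x)

theorem pow_mem_H0 {D : CaDiv X} {g : X.functionField} (hg : g ∈ D.H0) (n : ℕ) :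
    g ^ n ∈ (D ^ n).H0 := by
  induction n with
  | zero => simpa using one_mem_H0 (X := X) isEffective_one
  | succ n ih => rw [pow_succ, pow_succ]; exact mul_mem_H0 ih hg

theorem regular_mul_mem_H0 {D : CaDiv X} {a g : X.functionField}
    (ha : a ∈ regularOn X Set.univ) (hg : g ∈ D.H0) : a * g ∈ D.H0 := by
  have := mul_mem_H0 (mem_H0_one.2 ha) hg
  rwa [one_mul] at this

/-- Linear equivalence: `g ∈ H0 (div h + D) ↔ g h ∈ H0 D`. -/
theorem mem_H0_div_mul {D : CaDiv X} {h : X.functionFieldˣ} {g : X.functionField} :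
    g ∈ (div h * D).H0 ↔ g * (h : X.functionField) ∈ D.H0 := by
  simp only [mem_H0, mem_stalkLattice_div_mul]

/-- `H0` is monotone: if `E - D` is effective then `H0 D ≤ H0 E`. -/
theorem H0_mono {D E : CaDiv X} (h : (E / D).IsEffective) : D.H0 ≤ E.H0 := by
  intro g hg
  have := mul_mem_H0 hg (one_mem_H0 h)
  rwa [mul_one, mul_div_cancel] at this

theorem H0_le_H0_mul {D E : CaDiv X} (hE : E.IsEffective) : D.H0 ≤ (D * E).H0 :=
  H0_mono (by simpa using hE)

theorem H0_pow_mono {D : CaDiv X} (hD : D.IsEffective) {m n : ℕ} (h : m ≤ n) :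
    (D ^ m).H0 ≤ (D ^ n).H0 := by
  obtain ⟨k, rfl⟩ := Nat.exists_eq_add_of_le h
  rw [pow_add]
  exact H0_le_H0_mul (hD.pow k)

/-! ### Module structures -/

section Module

variable (R : Type*) [CommSemiring R] [Algebra R X.functionField]

/-- `H0 D` as an `R`-submodule of `F`, for any scalars `R` acting through globally regular
functions (e.g. `R = K` a base field, or `R = Γ(X, ⊤)`). -/
noncomputable def H0Submodule (hR : ∀ r : R, algebraMap R X.functionField r ∈ regularOn X Set.univ)
    (D : CaDiv X) : Submodule R X.functionField where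
  carrier := D.H0
  zero_mem' := D.H0.zero_mem
  add_mem' := D.H0.add_mem
  smul_mem' := fun r g hg => by
    rw [Algebra.smul_def]; exact regular_mul_mem_H0 (hR r) hg

variable {R}

theorem mem_H0Submodule {hR : ∀ r : R, algebraMap R X.functionField r ∈ regularOn X Set.univ}
    {D : CaDiv X} {g : X.functionField} : g ∈ H0Submodule R hR D ↔ g ∈ D.H0 := Iff.rfl

/-- Linearly equivalent divisors have isomorphic spaces of sections: multiplication by `h`
is an `R`-linear isomorphism `H0 (div h + D) ≃ H0 D`. -/
noncomputable def H0EquivOfDiv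
    (hR : ∀ r : R, algebraMap R X.functionField r ∈ regularOn X Set.univ)
    (D : CaDiv X) (h : X.functionFieldˣ) :
    H0Submodule R hR (div h * D) ≃ₗ[R] H0Submodule R hR D where
  toFun g := ⟨g.1 * (h : X.functionField), mem_H0_div_mul.1 g.2⟩
  invFun g := ⟨g.1 * ((h⁻¹ : X.functionFieldˣ) : X.functionField), by
    change _ ∈ (div h * D).H0
    rw [mem_H0_div_mul, mul_assoc]
    have : ((h⁻¹ : X.functionFieldˣ) : X.functionField) * (h : X.functionField) = 1 := by simp
    rw [this, mul_one]
    exact g.2⟩
  left_inv g := by ext; simp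
  right_inv g := by ext; simp
  map_add' a b := by ext; simp [add_mul]
  map_smul' r a := by ext; simp [Algebra.smul_def, mul_assoc]

theorem H0Submodule_mono
    (hR : ∀ r : R, algebraMap R X.functionField r ∈ regularOn X Set.univ)
    {D E : CaDiv X} (h : (E / D).IsEffective) : H0Submodule R hR D ≤ H0Submodule R hR E :=
  fun _ hg => H0_mono h hg

end Module

end CaDiv

end Fermat.Agent.AV.PicDiv86
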