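import Fermat.Agent.AV.PicDiv86.UnitGerm

/-!
# PIC-div, part 5b: presentations of `O(D)`

A `Presentation D P` exhibits the invertible module `P` as `O(D)`: trivialisations `c i` of `P`
on an open cover `W i`, local equations `f i` of `D` on `W i`, with transition units
`c j = (f i / f j) • c i` on overlaps. (`c i` is "the generator `(f i)⁻¹`".)
-/

set_option autoImplicit false

universe u

open AlgebraicGeometry CategoryTheory TopologicalSpace Opposite

namespace Fermat.Agent.AV.PicDiv86

open Fermat.Agent.Jac.ModGlue88 Fermat.Agent.AV.Pic38 LocalIsoU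

variable {X Y : Scheme.{u}} [IsIntegral X] [IsIntegral Y]

/-- `P` is a model of `O(D)`. -/
structure Presentation (D : CaDiv X) (P : X.Modules) where
  /-- index type of the cover -/
  ι : Type u
  /-- the cover -/
  W : ι → X.Opens
  cover : iSup W = ⊤
  /-- local equations of `D` -/
  f : ι → X.functionFieldˣ
  isLocalEq : ∀ i, ∀ y ∈ W i, D.IsLocalEq y (f i)
  /-- trivialisations of `P` -/
  c : ∀ i, Triv P (W i)
  transition : ∀ i j, IsUnitGerm (W i ⊓ W j)
    (tratio ((c i).restrict (inf_le_left : W i ⊓ W j ≤ W i))
      ((c j).restrict (inf_le_right : W i ⊓ W j ≤ W j))) (f i * (f j)⁻¹)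

namespace Presentation

variable {D E : CaDiv X} {P Q R P' : X.Modules}

theorem isInvertible (p : Presentation D P) : Scheme.Modules.IsInvertible P :=
  isInvertible_of_triv_cover p.W p.cover p.c

theorem exists_mem (p : Presentation D P) (x : X) : ∃ i, x ∈ p.W i := by
  have : x ∈ iSup p.W := by rw [p.cover]; trivial
  exact Opens.mem_iSup.1 this

/-- The transition unit on any open contained in two charts. -/
theorem isUnitGerm_tratio (p : Presentation D P) (i j : p.ι) (V : X.Opens) (hi : V ≤ p.W i)
    (hj : V ≤ p.W j) :
    IsUnitGerm V (tratio ((p.c i).restrict hi) ((p.c j).restrict hj)) (p.f i * (p.f j)⁻¹) := by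
  have h := (p.transition i j).resU (le_inf hi hj)
  rw [← tratio_restrict] at h
  simpa only [LocalIso.restrict_restrict'] using h

end Presentation

/-! ### Existence -/

theorem exists_presentation (D : CaDiv X) : ∃ P : X.Modules, Nonempty (Presentation D P) := by
  choose W hxW f hf using fun x : X => D.exists_open_isLocalEq x
  have hcover : iSup W = ⊤ := by
    apply top_le_iff.mp
    intro x _
    exact Opens.mem_iSup.2 ⟨x, hxW x⟩
  have hunit : ∀ x y : X, ∀ z ∈ W x ⊓ W y, f x * (f y)⁻¹ ∈ stalkUnits X z := by
    intro x y z hz
    have := (hf y z hz.2).div_mem (hf x z hz.1)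
    rwa [mul_comm] at this
  have hg : ∀ x y : X, IsUnitGerm (W x ⊓ W y) (unitOfGerm (W x ⊓ W y) (f x * (f y)⁻¹)
      (hunit x y)) (f x * (f y)⁻¹) := fun x y => isUnitGerm_unitOfGerm _ _ _
  let G : Cocycle X :=
    { ι := X
      W := W
      cover := hcover
      g := fun x y => unitOfGerm (W x ⊓ W y) (f x * (f y)⁻¹) (hunit x y)
      g_self := fun x => ((hg x x).congr (mul_inv_cancel _)).ext (IsUnitGerm.one _)
      g_coc := fun x y z =>
        ((((hg x y).resU _).mul ((hg y z).resU _)).congr (by group)).ext ((hg x z).resU _) }
  obtain ⟨P, c, hc⟩ := G.exists_glue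
  refine ⟨P, ⟨
    { ι := X
      W := W
      cover := hcover
      f := f
      isLocalEq := hf
      c := c
      transition := fun x y => ?_ }⟩⟩
  rw [tratio_eq_of_smul_eq (hc x y).symm]
  exact hg x y

namespace Presentation

variable {D E : CaDiv X} {P Q R P' : X.Modules}

/-! ### Basic presentations -/

/-- The trivial presentation of `O(0) = O`. -/
noncomputable def unit (X : Scheme.{u}) [IsIntegral X] :
    Presentation (1 : CaDiv X) (unitMod X) where
  ι := PUnit
  W _ := ⊤
  cover := by
    apply top_le_iff.mp
    intro x _
    exact Opens.mem_iSup.2 ⟨PUnit.unit, trivial⟩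
  f _ := 1
  isLocalEq _ _ _ := rfl
  c _ := LocalIso.refl _ _
  transition _ _ := by
    rw [tratio_self]
    exact (IsUnitGerm.one _).congr (by simp)

/-- Twisting by a principal divisor does not change the module: `O(D + div h) ≅ O(D)`. -/
noncomputable def twist (p : Presentation D P) (h : X.functionFieldˣ) :
    Presentation (CaDiv.div h * D) P where
  ι := p.ι
  W := p.W
  cover := p.cover
  f i := h * p.f i
  isLocalEq i y hy := (CaDiv.isLocalEq_div h y).mul (p.isLocalEq i y hy)
  c := p.c
  transition i j :=
    (p.transition i j).congr (by rw [mul_inv, mul_mul_mul_comm, mul_inv_cancel, one_mul])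

/-- Change the divisor along an equality. -/
noncomputable def copy (p : Presentation D P) (h : D = E) : Presentation E P := h ▸ p

omit [IsIntegral X] in
lemma LocalIso.trans_restrict {M N L : X.Modules} {U U' : X.Opens} (α : LocalIso M N U)
    (β : LocalIso N L U) (h : U' ≤ U) :
    (α.trans β).restrict h = (α.restrict h).trans (β.restrict h) := by
  apply LocalIso.ext
  simp only [LocalIso.trans_hom, LocalIso.restrict_hom, LocalHom.restrict_comp]

/-- Transport along an isomorphism of modules. -/
noncomputable def ofIso (p : Presentation D P) (e : P ≅ P') : Presentation D P' where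
  ι := p.ι
  W := p.W
  cover := p.cover
  f := p.f
  isLocalEq := p.isLocalEq
  c i := (p.c i).trans (LocalIso.ofIso e (p.W i))
  transition i j := by
    have h1 : ∀ (V : X.Opens) (k : p.ι) (hk : V ≤ p.W k),
        ((p.c k).trans (LocalIso.ofIso e (p.W k))).restrict hk =
          ((p.c k).restrict hk).trans (LocalIso.ofIso e V) := by
      intro V k hk
      rw [LocalIso.trans_restrict]
      congr 1
    rw [h1, h1, tratio_trans]
    exact p.transition i j

end Presentation

end Fermat.Agent.AV.PicDiv86
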