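import Fermat.Agent.AV.PicDiv86.Pullback
import Fermat.Agent.AV.Pic38.Map

/-!
# PIC-div, part 5a: units of sections with a prescribed germ in the function field

`IsUnitGerm U u h` : the unit `u ∈ Γ(X, U)ˣ` is the rational function `h ∈ Fˣ` at every point of
`U` (vacuous for `U = ⊥`). Such a `u` is unique, exists as soon as `h` is a local unit at every
point of `U`, and the notion is compatible with products, inverses, restriction and pull-back.
-/

set_option autoImplicit false

universe u

open AlgebraicGeometry CategoryTheory TopologicalSpace Opposite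

namespace Fermat.Agent.AV.PicDiv86

open Fermat.Agent.Jac.ModGlue88 Fermat.Agent.AV.Pic38

variable {X Y : Scheme.{u}} [IsIntegral X] [IsIntegral Y]

/-- The germ in `F` of a section at a point of its domain. -/
noncomputable def germF {U : X.Opens} (s : Γ(X, U)) (y : X) (hy : y ∈ U) : X.functionField :=
  algebraMap (X.presheaf.stalk y) X.functionField (X.presheaf.germ U y hy s)

theorem germF_eq_germToFunctionField {U : X.Opens} [Nonempty U] (s : Γ(X, U)) (y : X)
    (hy : y ∈ U) : germF s y hy = X.germToFunctionField U s :=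
  Scheme.algebraMap_germ_eq_germToFunctionField X hy s

theorem germF_resO {U' U : X.Opens} (h : U' ≤ U) (s : Γ(X, U)) (y : X) (hy : y ∈ U') :
    germF (resO X h s) y hy = germF s y (h hy) := by
  unfold germF
  congr 1
  exact X.presheaf.germ_res_apply (homOfLE h) y hy s

theorem germF_mul {U : X.Opens} (s t : Γ(X, U)) (y : X) (hy : y ∈ U) :
    germF (s * t) y hy = germF s y hy * germF t y hy := by
  unfold germF; rw [map_mul, map_mul]

theorem germF_one {U : X.Opens} (y : X) (hy : y ∈ U) : germF (1 : Γ(X, U)) y hy = 1 := by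
  unfold germF; rw [map_one, map_one]

/-- A section is determined by its germs in `F`. -/
theorem section_ext_germF {U : X.Opens} {s t : Γ(X, U)}
    (h : ∀ y (hy : y ∈ U), germF s y hy = germF t y hy) : s = t := by
  refine TopCat.Presheaf.section_ext X.sheaf U s t fun y hy => ?_
  exact IsFractionRing.injective (X.presheaf.stalk y) X.functionField (h y hy)

/-- `u` is the rational function `h` at every point of `U`. -/
def IsUnitGerm (U : X.Opens) (u : (Γ(X, U))ˣ) (h : X.functionFieldˣ) : Prop :=
  ∀ y (hy : y ∈ U), germF (u : Γ(X, U)) y hy = (h : X.functionField)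

namespace IsUnitGerm

variable {U U' : X.Opens} {u v : (Γ(X, U))ˣ} {h k : X.functionFieldˣ}

theorem one (U : X.Opens) : IsUnitGerm U (1 : (Γ(X, U))ˣ) (1 : X.functionFieldˣ) :=
  fun y hy => by rw [Units.val_one, germF_one, Units.val_one]

theorem mul (hu : IsUnitGerm U u h) (hv : IsUnitGerm U v k) : IsUnitGerm U (u * v) (h * k) :=
  fun y hy => by rw [Units.val_mul, germF_mul, hu y hy, hv y hy, Units.val_mul]

theorem inv (hu : IsUnitGerm U u h) : IsUnitGerm U u⁻¹ h⁻¹ := fun y hy => by
  have h1 : germF (u : Γ(X, U)) y hy * germF ((u⁻¹ : (Γ(X, U))ˣ) : Γ(X, U)) y hy = 1 := by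
    rw [← germF_mul, Units.mul_inv, germF_one]
  rw [hu y hy] at h1
  rw [Units.val_inv_eq_inv_val]
  exact eq_inv_of_mul_eq_one_right h1

theorem div (hu : IsUnitGerm U u h) (hv : IsUnitGerm U v k) : IsUnitGerm U (u / v) (h / k) := by
  rw [div_eq_mul_inv, div_eq_mul_inv]; exact hu.mul hv.inv

theorem resU (hu : IsUnitGerm U u h) (hle : U' ≤ U) : IsUnitGerm U' (resU X hle u) h :=
  fun y hy => by rw [resU_val, germF_resO]; exact hu y (hle hy)

theorem ext (hu : IsUnitGerm U u h) (hv : IsUnitGerm U v h) : u = v :=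
  Units.ext (section_ext_germF fun y hy => (hu y hy).trans (hv y hy).symm)

theorem congr (hu : IsUnitGerm U u h) (hk : h = k) : IsUnitGerm U u k := hk ▸ hu

theorem mem_stalkUnits (hu : IsUnitGerm U u h) {y : X} (hy : y ∈ U) : h ∈ stalkUnits X y := by
  rw [mem_stalkUnits_iff]
  exact ⟨⟨_, hu y hy⟩, ⟨_, hu.inv y hy⟩⟩

/-- If the rational function of `u` is known on a nonempty open. -/
theorem germToFunctionField_eq [Nonempty U] (hu : IsUnitGerm U u h) :
    X.germToFunctionField U (u : Γ(X, U)) = (h : X.functionField) := by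
  obtain ⟨⟨y, hy⟩⟩ := ‹Nonempty U›
  rw [← germF_eq_germToFunctionField _ y hy]; exact hu y hy

/-- Two rational functions with the same unit on a nonempty open are equal. -/
theorem eq_of_nonempty (hne : Nonempty U) (hu : IsUnitGerm U u h) (hv : IsUnitGerm U u k) :
    h = k := by
  obtain ⟨⟨y, hy⟩⟩ := hne
  exact Units.ext ((hu y hy).symm.trans (hv y hy))

/-- Compatibility with pull-back along a dominant morphism. -/
theorem appU (φ : Y ⟶ X) [IsDominant φ] (hu : IsUnitGerm U u h) :
    IsUnitGerm (φ ⁻¹ᵁ U) (appU φ U u) (unitsMap φ h) := by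
  intro y hy
  have hy' : φ y ∈ U := hy
  rw [coe_unitsMap, ← hu (φ y) hy']
  unfold germF
  rw [functionFieldMap_algebraMap, Scheme.Hom.germ_stalkMap_apply φ U y hy']
  rfl

end IsUnitGerm

/-- A rational function which is a local unit at every point of `U` is a unit of `Γ(X, U)`. -/
theorem exists_isUnitGerm (U : X.Opens) (h : X.functionFieldˣ)
    (hh : ∀ y ∈ U, h ∈ stalkUnits X y) : ∃ u : (Γ(X, U))ˣ, IsUnitGerm U u h := by
  by_cases hne : Nonempty U
  · have h1 : (h : X.functionField) ∈ regularOn X (U : Set X) :=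
      mem_regularOn.2 fun y hy => (mem_stalkUnits_iff.1 (hh y hy)).1
    have h2 : ((h⁻¹ : X.functionFieldˣ) : X.functionField) ∈ regularOn X (U : Set X) :=
      mem_regularOn.2 fun y hy => (mem_stalkUnits_iff.1 (hh y hy)).2
    obtain ⟨s, hs⟩ := mem_regularOn_iff.1 h1
    obtain ⟨t, ht⟩ := mem_regularOn_iff.1 h2
    have hst : s * t = 1 := by
      apply Scheme.germToFunctionField_injective X U
      rw [map_mul, hs, ht, map_one]
      simp
    refine ⟨⟨s, t, hst, by rw [mul_comm]; exact hst⟩, fun y hy => ?_⟩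
    rw [germF_eq_germToFunctionField]
    exact hs
  · exact ⟨1, fun y hy => (hne ⟨⟨y, hy⟩⟩).elim⟩

/-- The unit of `Γ(X, U)` attached to a rational function which is a local unit on `U`. -/
noncomputable def unitOfGerm (U : X.Opens) (h : X.functionFieldˣ)
    (hh : ∀ y ∈ U, h ∈ stalkUnits X y) : (Γ(X, U))ˣ :=
  (exists_isUnitGerm U h hh).choose

theorem isUnitGerm_unitOfGerm (U : X.Opens) (h : X.functionFieldˣ)
    (hh : ∀ y ∈ U, h ∈ stalkUnits X y) : IsUnitGerm U (unitOfGerm U h hh) h :=
  (exists_isUnitGerm U h hh).choose_spec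

end Fermat.Agent.AV.PicDiv86
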